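/-
Programme I (S33, p-new half), block B3 (expansion layer), node §2d, part 6 (helper5):
the RESIDUE CONDITION of the node target: `B = W + (X, Y)`, and `B = c W₀ + (c ϖ₀, X, Y)` when
`W₀` is dense modulo `ϖ₀` in the unit ball of `K`.  This is the hypothesis `hresB` of
`Expand.ExpData.exists_expand_approx` (density of the expansions) and of
`Expand.ExpData.Mor.transfer` (functoriality / equivariance (X3)).
-/
import Mathlib
import Fermat.Agent.FF3.NodeEval.TargetInst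

set_option autoImplicit false
set_option linter.unusedSectionVars false

noncomputable section

namespace Fermat.Agent.FF3.NodeEval

open Filter Topology Fermat.Agent.FF3.Amice Fermat.Agent.FF3.Amice.BAmice

variable {K : Type*} [NormedField K] [IsUltrametricDist K] [CompleteSpace K]
variable {Ω : Type*} [NormedField Ω] [IsUltrametricDist Ω] [CompleteSpace Ω] [NormedAlgebra K Ω]

/-- a sequence with `‖ℓ (-m)‖ ≤ ‖π‖ ^ m` tends to zero at `-∞` -/
theorem tendsto_atBot_zero_of_le {π : K} (hπ1 : ‖π‖ < 1) {ℓ : ℤ → K}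
    (h : ∀ m : ℕ, ‖ℓ (-(m : ℤ))‖ ≤ ‖π‖ ^ m) : Tendsto ℓ atBot (𝓝 0) := by
  rw [Metric.tendsto_nhds]
  intro ε hε
  obtain ⟨N, hN⟩ := exists_pow_lt_of_lt_one hε hπ1
  refine Filter.eventually_atBot.mpr ⟨-(N : ℤ), fun k hk => ?_⟩
  rw [dist_zero_right]
  obtain ⟨m, rfl⟩ : ∃ m : ℕ, k = -(m : ℤ) := ⟨k.natAbs, by omega⟩
  have hNm : N ≤ m := by omega
  exact lt_of_le_of_lt ((h m).trans (pow_le_pow_of_le_one (norm_nonneg _) hπ1.le hNm)) hN

/-- **the decomposition of a node series**: `c = c₀ + X p + (π X⁻¹) q` with node series `p, q` -/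
theorem exists_decomp {π : K} (hπ0 : π ≠ 0) (hπ1 : ‖π‖ < 1) {c : BAmice K}
    (h : IsNodeSeries π 1 c) : ∃ p q : BAmice K, IsNodeSeries π 1 p ∧ IsNodeSeries π 1 q ∧
      c = single 0 (coeff 0 c) + single 1 1 * p + single (-1) π * q := by
  have hπpos : 0 < ‖π‖ := norm_pos_iff.mpr hπ0
  have hle : ∀ k : ℤ, ‖coeff k c‖ ≤ 1 := by
    intro k
    rcases Int.eq_nat_or_neg k with ⟨m, rfl | rfl⟩
    · exact h.1 m
    · refine (h.2 m).trans ?_
      rw [one_mul]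
      exact pow_le_one₀ hπpos.le hπ1.le
  -- the quotient of the negative part by `π`
  have hneg : ∀ m : ℕ, ‖coeff (-(m : ℤ) - 1) c * π⁻¹‖ ≤ ‖π‖ ^ m := by
    intro m
    have h1 := h.2 (m + 1)
    have e : -(((m + 1 : ℕ)) : ℤ) = -(m : ℤ) - 1 := by push_cast; ring
    rw [e, one_mul, pow_succ] at h1
    rw [norm_mul, norm_inv]
    exact (mul_inv_le_iff₀ hπpos).mpr h1
  set pf : ℤ → K := fun n => if 0 ≤ n then coeff (n + 1) c else 0 with hpf
  set qf : ℤ → K := fun n => if n ≤ 0 then coeff (n - 1) c * π⁻¹ else 0 with hqf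
  have hple : ∀ n : ℤ, ‖pf n‖ ≤ 1 := by
    intro n
    rw [hpf]
    dsimp only
    split_ifs
    · exact hle _
    · rw [norm_zero]; exact zero_le_one
  have hpb : BddAbove (Set.range fun n => ‖pf n‖) := ⟨1, by
    rintro _ ⟨n, rfl⟩
    exact hple n⟩
  have hp0 : Tendsto pf atBot (𝓝 0) := by
    refine tendsto_const_nhds.congr' ?_
    filter_upwards [eventually_lt_atBot (0 : ℤ)] with n hn
    rw [hpf]
    dsimp only
    rw [if_neg (by omega)]
  have hqle : ∀ n : ℤ, ‖qf n‖ ≤ 1 := by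
    intro n
    rw [hqf]
    dsimp only
    split_ifs with hn
    · obtain ⟨m, rfl⟩ : ∃ m : ℕ, n = -(m : ℤ) := ⟨n.natAbs, by omega⟩
      exact (hneg m).trans (pow_le_one₀ hπpos.le hπ1.le)
    · rw [norm_zero]; exact zero_le_one
  have hqb : BddAbove (Set.range fun n => ‖qf n‖) := ⟨1, by
    rintro _ ⟨n, rfl⟩
    exact hqle n⟩
  have hq0 : Tendsto qf atBot (𝓝 0) := by
    refine tendsto_atBot_zero_of_le hπ1 fun m => ?_
    rw [hqf]
    dsimp only
    rw [if_pos (by omega)]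
    exact hneg m
  refine ⟨BAmice.mk pf hpb hp0, BAmice.mk qf hqb hq0, ⟨fun n => ?_, fun m => ?_⟩,
    ⟨fun n => ?_, fun m => ?_⟩, ?_⟩
  · rw [coeff_mk]
    exact hple _
  · rw [coeff_mk, hpf]
    dsimp only
    split_ifs with hm
    · have : m = 0 := by omega
      subst this
      rw [pow_zero, mul_one]
      exact hle _
    · rw [norm_zero]
      exact mul_nonneg zero_le_one (pow_nonneg (norm_nonneg _) _)
  · rw [coeff_mk]
    exact hqle _
  · rw [coeff_mk, hqf]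
    dsimp only
    rw [if_pos (by omega), one_mul]
    exact hneg m
  · refine BAmice.ext fun k => ?_
    rw [coeff_add, coeff_add, coeff_single, coeff_single_mul, coeff_single_mul, coeff_mk, coeff_mk,
      hpf, hqf]
    dsimp only
    rcases lt_trichotomy k 0 with hk | hk | hk
    · rw [if_neg (by omega), if_neg (by omega), if_pos (by omega)]
      have e : k - -1 - 1 = k := by ring
      rw [e, zero_add, mul_zero, zero_add, mul_comm (coeff k c), ← mul_assoc,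
        mul_inv_cancel₀ hπ0, one_mul]
    · subst hk
      rw [if_pos rfl, if_neg (by omega), if_neg (by omega), mul_zero, mul_zero, add_zero, add_zero]
    · rw [if_neg (by omega), if_pos (by omega), if_neg (by omega)]
      have e : k - 1 + 1 = k := by ring
      rw [e, zero_add, one_mul, mul_zero, add_zero]

namespace NodeModel

variable {π : K} {B : Type*} [CommRing B] (M : NodeModel π B)

/-- **`B = W + (X, Y)`** -/
theorem exists_sub_constFun_mem (hπ0 : π ≠ 0) (hπ1 : ‖π‖ < 1) {X Y : B}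
    (hX : M.tx X = single 1 1) (hY : M.tx Y = single (-1) π) (b : B) :
    ∃ (a : K) (ha : ‖a‖ ≤ 1), b - M.constFun a ha ∈ Ideal.span {X, Y} := by
  obtain ⟨p, q, hp, hq, hdec⟩ := exists_decomp hπ0 hπ1 (M.isNodeSeries_tx b)
  obtain ⟨pB, hpB⟩ := M.exists_tx_eq p hp
  obtain ⟨qB, hqB⟩ := M.exists_tx_eq q hq
  have ha : ‖coeff 0 (M.tx b)‖ ≤ 1 := (M.isNodeSeries_tx b).1 0
  refine ⟨coeff 0 (M.tx b), ha, ?_⟩
  have e : b - M.constFun (coeff 0 (M.tx b)) ha = X * pB + Y * qB := M.tx_injective (by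
    rw [map_sub, map_add, map_mul, map_mul, tx_constFun, hX, hY, hpB, hqB, sub_eq_iff_eq_add]
    exact hdec.trans (by ring))
  rw [e]
  exact add_mem (Ideal.mul_mem_right _ _ (Ideal.subset_span (by simp)))
    (Ideal.mul_mem_right _ _ (Ideal.subset_span (by simp)))

/-- **`B = c W₀ + (c ϖ₀, X, Y)`** when `W₀` is dense modulo `ϖ₀` in the unit ball of `K` -/
theorem exists_sub_constHom_mem (hπ0 : π ≠ 0) (hπ1 : ‖π‖ < 1) {W₀ : Type*} [CommRing W₀]
    (cK : W₀ →+* K) (hcK : ∀ w, ‖cK w‖ ≤ 1) (ϖ₀ : W₀) (hϖ₀ : cK ϖ₀ ≠ 0)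
    (hdense : ∀ a : K, ‖a‖ ≤ 1 → ∃ w : W₀, ‖a - cK w‖ ≤ ‖cK ϖ₀‖) (b : B) :
    ∃ w : W₀, b - M.constHom cK hcK w ∈
      Ideal.span {M.constHom cK hcK ϖ₀, M.Xel, M.Yel} := by
  obtain ⟨a, ha, hmem⟩ := M.exists_sub_constFun_mem hπ0 hπ1 M.tx_Xel M.tx_Yel b
  obtain ⟨w, hw⟩ := hdense a ha
  refine ⟨w, ?_⟩
  have hd : ‖(a - cK w) * (cK ϖ₀)⁻¹‖ ≤ 1 := by
    rw [norm_mul, norm_inv]
    exact (mul_inv_le_iff₀ (norm_pos_iff.mpr hϖ₀)).mpr (by rwa [one_mul])
  have e : b - M.constHom cK hcK w = (b - M.constFun a ha) +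
      M.constHom cK hcK ϖ₀ * M.constFun _ hd := by
    have e2 : M.constFun a ha - M.constHom cK hcK w =
        M.constHom cK hcK ϖ₀ * M.constFun _ hd := M.tx_injective (by
      rw [map_sub, map_mul, tx_constFun, tx_constHom, tx_constHom, tx_constFun, single_mul_single,
        zero_add, single_zero_eq_algebraMap, single_zero_eq_algebraMap, single_zero_eq_algebraMap,
        ← map_sub]
      congr 1
      field_simp)
    rw [← e2]
    ring
  rw [e]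
  refine add_mem ?_ (Ideal.mul_mem_right _ _ (Ideal.subset_span (by simp)))
  exact Ideal.span_mono (by intro x hx; simp only [Set.mem_insert_iff, Set.mem_singleton_iff] at hx ⊢; tauto) hmem

/-- the residue condition for the node target of a model -/
theorem toTargetEv_hresB {θ : ℝ} (hθ1 : θ < 1) (hdisc : ∀ x y : K, ‖x‖ < ‖y‖ → ‖x‖ ≤ θ * ‖y‖)
    (hπ0 : π ≠ 0) (hπ1 : ‖π‖ < 1) {W₀ : Type*} [CommRing W₀] (cK : W₀ →+* K)
    (hcK : ∀ w, ‖cK w‖ ≤ 1) (ϖ₀ π₀ : W₀) (hϖ₀ : ‖cK ϖ₀‖ < 1) (hπ₀ : cK π₀ = π)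
    (hϖ₀' : cK ϖ₀ ≠ 0) (hdense : ∀ a : K, ‖a‖ ≤ 1 → ∃ w : W₀, ‖a - cK w‖ ≤ ‖cK ϖ₀‖) (b : B) :
    ∃ w : W₀, b - (M.toTargetEv (Ω := Ω) hθ1 hdisc hπ0 hπ1 cK hcK ϖ₀ π₀ hϖ₀ hπ₀).c w ∈
      Ideal.span {(M.toTargetEv (Ω := Ω) hθ1 hdisc hπ0 hπ1 cK hcK ϖ₀ π₀ hϖ₀ hπ₀).c ϖ₀,
        (M.toTargetEv (Ω := Ω) hθ1 hdisc hπ0 hπ1 cK hcK ϖ₀ π₀ hϖ₀ hπ₀).X,
        (M.toTargetEv (Ω := Ω) hθ1 hdisc hπ0 hπ1 cK hcK ϖ₀ π₀ hϖ₀ hπ₀).Y} :=
  M.exists_sub_constHom_mem hπ0 hπ1 cK hcK ϖ₀ hϖ₀' hdense b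

end NodeModel

end Fermat.Agent.FF3.NodeEval
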