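/-
Programme I (S33, p-new half), block B3 (expansion layer), node §2d, part 7 (helper5):
helper10's integral node ring `NodeInt π` (closed unit ball of the node algebra `NodeB π`,
`FF3/NodeRing/Int`) is a MODEL of the node ring (`NodeModel π (NodeInt π)`, `FF3/NodeEval/Target`),
hence a node target (`Expand.NodeTargetEv`): evaluation at the points of the open annulus,
pointwise completeness, two-ended identity theorem, residue condition.  The coordinates and the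
constants of the model are helper10's `XInt`, `YInt`, `cInt`.
-/
import Mathlib
import Fermat.Agent.FF3.NodeRing.Int
import Fermat.Agent.FF3.NodeEval.Residue

set_option autoImplicit false
set_option linter.unusedSectionVars false

noncomputable section

namespace Fermat.Agent.FF3.NodeEval

open Filter Topology Fermat.Agent.FF3.Amice Fermat.Agent.FF3.Amice.BAmice
open Fermat.Agent.FF3.NodeRing

variable {K : Type*} [NormedField K] [IsUltrametricDist K] [CompleteSpace K]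
variable {Ω : Type*} [NormedField Ω] [IsUltrametricDist Ω] [CompleteSpace Ω] [NormedAlgebra K Ω]
variable {π : K}

/-- **the integral node ring is a model of the node ring** -/
def nodeModelInt (hπ : π ≠ 0) (hπ1 : ‖π‖ < 1) : NodeModel π (NodeInt π) where
  tx := toXInt π
  tx_injective := toXInt_injective hπ
  isNodeSeries_tx := fun g => ⟨norm_coeff_toX_natCast_le g, norm_coeff_toX_neg_le hπ g⟩
  exists_tx_eq := fun c h => exists_toX_eq hπ hπ1 c h.1 h.2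

@[simp] theorem nodeModelInt_tx (hπ : π ≠ 0) (hπ1 : ‖π‖ < 1) (g : NodeInt π) :
    (nodeModelInt hπ hπ1).tx g = toX (g : NodeB π) := rfl

theorem tx_XInt (hπ : π ≠ 0) (hπ1 : ‖π‖ < 1) :
    (nodeModelInt hπ hπ1).tx (XInt hπ hπ1.le) = single 1 1 := rfl

theorem tx_YInt (hπ : π ≠ 0) (hπ1 : ‖π‖ < 1) :
    (nodeModelInt hπ hπ1).tx (YInt hπ hπ1.le) = single (-1) π := rfl

theorem tx_cInt (hπ : π ≠ 0) (hπ1 : ‖π‖ < 1) (a : K) (ha : ‖a‖ ≤ 1) :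
    (nodeModelInt hπ hπ1).tx (cInt a ha) = single 0 a := by
  rw [nodeModelInt_tx, coe_cInt, AlgHom.commutes, NodeModel.single_zero_eq_algebraMap]

theorem Xel_nodeModelInt (hπ : π ≠ 0) (hπ1 : ‖π‖ < 1) :
    (nodeModelInt hπ hπ1).Xel = XInt hπ hπ1.le :=
  (nodeModelInt hπ hπ1).tx_injective (by rw [NodeModel.tx_Xel, tx_XInt])

theorem Yel_nodeModelInt (hπ : π ≠ 0) (hπ1 : ‖π‖ < 1) :
    (nodeModelInt hπ hπ1).Yel = YInt hπ hπ1.le :=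
  (nodeModelInt hπ hπ1).tx_injective (by rw [NodeModel.tx_Yel, tx_YInt])

theorem constFun_nodeModelInt (hπ : π ≠ 0) (hπ1 : ‖π‖ < 1) (a : K) (ha : ‖a‖ ≤ 1) :
    (nodeModelInt hπ hπ1).constFun a ha = cInt a ha :=
  (nodeModelInt hπ hπ1).tx_injective (by rw [NodeModel.tx_constFun, tx_cInt])

theorem constHom_nodeModelInt (hπ : π ≠ 0) (hπ1 : ‖π‖ < 1) {W₀ : Type*} [CommRing W₀]
    (cK : W₀ →+* K) (hcK : ∀ w, ‖cK w‖ ≤ 1) (w : W₀) :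
    (nodeModelInt hπ hπ1).constHom cK hcK w = cInt (cK w) (hcK w) :=
  constFun_nodeModelInt hπ hπ1 _ _

/-- the constants of the model over a subring of the unit ball are helper10's `constHom` -/
theorem constHom_nodeModelInt_subtype (hπ : π ≠ 0) (hπ1 : ‖π‖ < 1) (S : Subring K)
    (hS : ∀ a ∈ S, ‖a‖ ≤ 1) :
    (nodeModelInt hπ hπ1).constHom S.subtype (fun a => hS a a.2) = NodeRing.constHom π S hS :=
  RingHom.ext fun a => constHom_nodeModelInt hπ hπ1 S.subtype (fun a => hS a a.2) a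

/-- **the node target on the integral node ring** -/
def nodeTargetInt {θ : ℝ} (hθ1 : θ < 1) (hdisc : ∀ x y : K, ‖x‖ < ‖y‖ → ‖x‖ ≤ θ * ‖y‖)
    (hπ : π ≠ 0) (hπ1 : ‖π‖ < 1) {W₀ : Type*} [CommRing W₀] (cK : W₀ →+* K)
    (hcK : ∀ w, ‖cK w‖ ≤ 1) (ϖ₀ π₀ : W₀) (hϖ₀ : ‖cK ϖ₀‖ < 1) (hπ₀ : cK π₀ = π) :
    Expand.NodeTargetEv W₀ ϖ₀ π₀ Ω ((algebraMap K Ω).comp cK) (NodeInt π) :=
  (nodeModelInt hπ hπ1).toTargetEv hθ1 hdisc hπ hπ1 cK hcK ϖ₀ π₀ hϖ₀ hπ₀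

section fields

variable {θ : ℝ} (hθ1 : θ < 1) (hdisc : ∀ x y : K, ‖x‖ < ‖y‖ → ‖x‖ ≤ θ * ‖y‖)
  (hπ : π ≠ 0) (hπ1 : ‖π‖ < 1) {W₀ : Type*} [CommRing W₀] (cK : W₀ →+* K)
  (hcK : ∀ w, ‖cK w‖ ≤ 1) (ϖ₀ π₀ : W₀) (hϖ₀ : ‖cK ϖ₀‖ < 1) (hπ₀ : cK π₀ = π)

theorem nodeTargetInt_X :
    (nodeTargetInt (Ω := Ω) hθ1 hdisc hπ hπ1 cK hcK ϖ₀ π₀ hϖ₀ hπ₀).X = XInt hπ hπ1.le :=
  Xel_nodeModelInt hπ hπ1

theorem nodeTargetInt_Y :
    (nodeTargetInt (Ω := Ω) hθ1 hdisc hπ hπ1 cK hcK ϖ₀ π₀ hϖ₀ hπ₀).Y = YInt hπ hπ1.le :=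
  Yel_nodeModelInt hπ hπ1

theorem nodeTargetInt_c (w : W₀) :
    (nodeTargetInt (Ω := Ω) hθ1 hdisc hπ hπ1 cK hcK ϖ₀ π₀ hϖ₀ hπ₀).c w = cInt (cK w) (hcK w) :=
  constHom_nodeModelInt hπ hπ1 cK hcK w

theorem nodeTargetInt_evalAt (a : Ω) (h1 : ‖(algebraMap K Ω).comp cK π₀‖ < ‖a‖) (h2 : ‖a‖ < 1)
    (g : NodeInt π) :
    (nodeTargetInt (Ω := Ω) hθ1 hdisc hπ hπ1 cK hcK ϖ₀ π₀ hϖ₀ hπ₀).evalAt a h1 h2 g =
      ∑' n, term a (toX (g : NodeB π)) n := rfl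

/-- the residue condition `B = c W₀ + (c ϖ₀, X, Y)` of the node target -/
theorem nodeTargetInt_hresB (hϖ₀' : cK ϖ₀ ≠ 0)
    (hdense : ∀ a : K, ‖a‖ ≤ 1 → ∃ w : W₀, ‖a - cK w‖ ≤ ‖cK ϖ₀‖) (b : NodeInt π) :
    ∃ w : W₀, b - (nodeTargetInt (Ω := Ω) hθ1 hdisc hπ hπ1 cK hcK ϖ₀ π₀ hϖ₀ hπ₀).c w ∈
      Ideal.span {(nodeTargetInt (Ω := Ω) hθ1 hdisc hπ hπ1 cK hcK ϖ₀ π₀ hϖ₀ hπ₀).c ϖ₀,
        (nodeTargetInt (Ω := Ω) hθ1 hdisc hπ hπ1 cK hcK ϖ₀ π₀ hϖ₀ hπ₀).X,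
        (nodeTargetInt (Ω := Ω) hθ1 hdisc hπ hπ1 cK hcK ϖ₀ π₀ hϖ₀ hπ₀).Y} :=
  (nodeModelInt hπ hπ1).toTargetEv_hresB hθ1 hdisc hπ hπ1 cK hcK ϖ₀ π₀ hϖ₀ hπ₀ hϖ₀' hdense b

end fields

end Fermat.Agent.FF3.NodeEval
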