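/-
Programme I (S33, p-new half), block B3 (expansion layer), node §2d, part 1 (helper5).
Mathlib-only: the Cauchy product of two unconditionally summable families indexed by `ℤ` in a
complete ultrametric normed field.

* `hasSum_conv` : if `f` sums to `a` and `g` sums to `b` then every convolution fibre
  `i ↦ f i * g (n - i)` is summable and `n ↦ ∑' i, f i * g (n - i)` sums to `a * b`.
* `norm_tsum_eq_of_dominant` : a summable family with a strictly dominant term has a sum of the
  norm of that term; in particular the sum is nonzero.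
-/
import Mathlib

set_option autoImplicit false

namespace Fermat.Agent.FF3.NodeEval

open Filter Topology

variable {Ω : Type*} [NormedField Ω] [IsUltrametricDist Ω]

/-- a normed field with ultrametric distance is a nonarchimedean ring -/
theorem nonarchimedeanRing_of_ultrametric : NonarchimedeanRing Ω :=
  { (inferInstance : IsTopologicalRing Ω) with
    is_nonarchimedean := NonarchimedeanAddGroup.is_nonarchimedean }

/-- the reindexing `(n, i) ↦ (i, n - i)` of `ℤ × ℤ` -/
def convEquiv : ℤ × ℤ ≃ ℤ × ℤ where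
  toFun q := (q.2, q.1 - q.2)
  invFun p := (p.1 + p.2, p.1)
  left_inv q := by ext <;> simp
  right_inv p := by ext <;> simp

variable [CompleteSpace Ω]

/-- **Cauchy product on `ℤ`.** -/
theorem hasSum_conv {f g : ℤ → Ω} {a b : Ω} (hf : HasSum f a) (hg : HasSum g b) :
    (∀ n : ℤ, Summable fun i : ℤ => f i * g (n - i)) ∧
      HasSum (fun n : ℤ => ∑' i : ℤ, f i * g (n - i)) (a * b) := by
  have : NonarchimedeanRing Ω := nonarchimedeanRing_of_ultrametric
  have h : HasSum (fun p : ℤ × ℤ => f p.1 * g p.2) (a * b) := hf.mul_of_nonarchimedean hg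
  have h' : HasSum (fun q : ℤ × ℤ => f q.2 * g (q.1 - q.2)) (a * b) :=
    (convEquiv.hasSum_iff (f := fun p : ℤ × ℤ => f p.1 * g p.2)).mpr h
  have hfib : ∀ n : ℤ, Summable fun i : ℤ => f i * g (n - i) := fun n =>
    h'.summable.prod_factor n
  exact ⟨hfib, h'.prod_fiberwise fun n => (hfib n).hasSum⟩

theorem tsum_conv {f g : ℤ → Ω} (hf : Summable f) (hg : Summable g) :
    ∑' n : ℤ, ∑' i : ℤ, f i * g (n - i) = (∑' i, f i) * ∑' j, g j :=
  (hasSum_conv hf.hasSum hg.hasSum).2.tsum_eq

omit [CompleteSpace Ω] in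
/-- **Dominant term.** If all the terms of a summable family other than `f n₀` have norm at most
`r < ‖f n₀‖`, the sum has the norm of `f n₀`. -/
theorem norm_tsum_eq_of_dominant {ι : Type*} [DecidableEq ι] {f : ι → Ω} (hf : Summable f)
    (n₀ : ι) {r : ℝ} (hr0 : 0 ≤ r) (hr : r < ‖f n₀‖) (hle : ∀ n, n ≠ n₀ → ‖f n‖ ≤ r) :
    ‖∑' n, f n‖ = ‖f n₀‖ := by
  -- split off the term `n₀`
  have hsplit : ∑' n, f n = f n₀ + ∑' n, (if n = n₀ then 0 else f n) :=
    hf.tsum_eq_add_tsum_ite n₀
  have hrest : ‖∑' n, (if n = n₀ then 0 else f n)‖ ≤ r := by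
    refine IsUltrametricDist.norm_tsum_le_of_forall_le_of_nonneg hr0 fun n => ?_
    split_ifs with h
    · rw [norm_zero]; exact hr0
    · exact hle n h
  rw [hsplit]
  exact IsUltrametricDist.norm_add_eq_max_of_norm_ne_norm (ne_of_gt (lt_of_le_of_lt hrest hr)) ▸
    (max_eq_left (le_of_lt (lt_of_le_of_lt hrest hr)))

end Fermat.Agent.FF3.NodeEval
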