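/-
Programme I (S33, p-new half), block B3 (expansion layer), node §2d, part 2 (helper5):
EVALUATION of bounded two-sided series at a point.

`K` a complete ultrametric normed field, `BAmice K` helper10's ring of bounded bi-infinite series
(`FF3/Amice`), `Ω` a complete ultrametric normed field which is a normed `K`-algebra, `z : Ω`,
`z ≠ 0`.

* `term z c n = c_n z ^ n`, `ConvAt z c` : the series `∑ c_n z ^ n` is (unconditionally) summable;
* `convSubring z hz : Subring (BAmice K)` : the series convergent at `z`;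
* `evalAt z hz : convSubring z hz →+* Ω` : the evaluation, a ring homomorphism (Cauchy product);
  `evalAt_algebraMap`, `evalAt_X`, `norm_evalAt_le`;
* `convAt_of_bound` : a series with `‖c_{-m}‖ ≤ C ρ ^ m` converges at every `z` with
  `ρ < ‖z‖ < 1` (the elements of the node ring `W[[X,Y]]/(XY - π)`, `ρ = ‖π‖`).
-/
import Mathlib
import Fermat.Agent.FF3.Amice.Mul
import Fermat.Agent.FF3.NodeEval.Conv

set_option autoImplicit false
set_option linter.unusedSectionVars false

noncomputable section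

namespace Fermat.Agent.FF3.NodeEval

open Filter Topology Fermat.Agent.FF3.Amice Fermat.Agent.FF3.Amice.BAmice

variable {K : Type*} [NormedField K] [IsUltrametricDist K] [CompleteSpace K]
variable {Ω : Type*} [NormedField Ω] [IsUltrametricDist Ω] [CompleteSpace Ω] [NormedAlgebra K Ω]

/-- the `n`-th term of the evaluation of `c` at `z` -/
def term (z : Ω) (c : BAmice K) (n : ℤ) : Ω := algebraMap K Ω (coeff n c) * z ^ n

/-- the series `∑ c_n z ^ n` is summable -/
def ConvAt (z : Ω) (c : BAmice K) : Prop := Summable (term z c)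

@[simp] theorem term_zero (z : Ω) (n : ℤ) : term z (0 : BAmice K) n = 0 := by
  simp [term]

theorem term_add (z : Ω) (c d : BAmice K) (n : ℤ) :
    term z (c + d) n = term z c n + term z d n := by
  simp [term, add_mul]

theorem term_neg (z : Ω) (c : BAmice K) (n : ℤ) : term z (-c) n = -term z c n := by
  simp [term]

theorem term_one (z : Ω) (n : ℤ) : term z (1 : BAmice K) n = if n = 0 then 1 else 0 := by
  unfold term
  rw [coeff_one]
  split_ifs with h
  · subst h; simp
  · simp

/-- the Cauchy product, termwise -/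
theorem hasSum_term_mul {z : Ω} (hz : z ≠ 0) (c d : BAmice K) (n : ℤ) :
    HasSum (fun i : ℤ => term z c i * term z d (n - i)) (term z (c * d) n) := by
  have h1 : HasSum (fun i : ℤ => coeff i c * coeff (n - i) d) (coeff n (c * d)) := by
    rw [coeff_mul]
    exact (summable_coeff_mul n c d).hasSum
  have h2 := h1.map (algebraMap K Ω).toAddMonoidHom (continuous_algebraMap K Ω)
  have h3 := h2.mul_right (z ^ n)
  have e : (fun i : ℤ => term z c i * term z d (n - i)) =
      fun i : ℤ => algebraMap K Ω (coeff i c * coeff (n - i) d) * z ^ n := by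
    funext i
    have hzp : z ^ n = z ^ i * z ^ (n - i) := by
      rw [← zpow_add₀ hz]
      congr 1
      ring
    simp only [term, map_mul]
    rw [hzp]
    ring
  rw [e]
  exact h3

/-! ### the subring of the series convergent at `z` -/

theorem convAt_zero (z : Ω) : ConvAt z (0 : BAmice K) := by
  unfold ConvAt
  have : term z (0 : BAmice K) = fun _ => 0 := funext fun n => term_zero z n
  rw [this]
  exact summable_zero

theorem ConvAt.add {z : Ω} {c d : BAmice K} (hc : ConvAt z c) (hd : ConvAt z d) :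
    ConvAt z (c + d) := by
  unfold ConvAt
  have : term z (c + d) = fun n => term z c n + term z d n := funext fun n => term_add z c d n
  rw [this]
  exact Summable.add hc hd

theorem ConvAt.neg {z : Ω} {c : BAmice K} (hc : ConvAt z c) : ConvAt z (-c) := by
  unfold ConvAt
  have : term z (-c) = fun n => -term z c n := funext fun n => term_neg z c n
  rw [this]
  exact Summable.neg hc

theorem convAt_one (z : Ω) : ConvAt z (1 : BAmice K) := by
  unfold ConvAt
  have : term z (1 : BAmice K) = fun n => if n = 0 then 1 else 0 := funext fun n => term_one z n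
  rw [this]
  exact (hasSum_ite_eq (0 : ℤ) (1 : Ω)).summable

/-- the terms of a product sum to the product of the sums -/
theorem hasSum_term_mul_total {z : Ω} (hz : z ≠ 0) {c d : BAmice K} (hc : ConvAt z c)
    (hd : ConvAt z d) : HasSum (term z (c * d)) ((∑' n, term z c n) * ∑' n, term z d n) := by
  obtain ⟨-, h⟩ := hasSum_conv hc.hasSum hd.hasSum
  have e : (fun n : ℤ => ∑' i : ℤ, term z c i * term z d (n - i)) = term z (c * d) :=
    funext fun n => (hasSum_term_mul hz c d n).tsum_eq
  rwa [e] at h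

theorem ConvAt.mul {z : Ω} (hz : z ≠ 0) {c d : BAmice K} (hc : ConvAt z c) (hd : ConvAt z d) :
    ConvAt z (c * d) := (hasSum_term_mul_total hz hc hd).summable

/-- the subring of the series convergent at `z` -/
def convSubring (z : Ω) (hz : z ≠ 0) : Subring (BAmice K) where
  carrier := {c | ConvAt z c}
  mul_mem' hc hd := ConvAt.mul hz hc hd
  one_mem' := convAt_one z
  add_mem' hc hd := ConvAt.add hc hd
  zero_mem' := convAt_zero z
  neg_mem' hc := ConvAt.neg hc

theorem mem_convSubring {z : Ω} {hz : z ≠ 0} {c : BAmice K} :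
    c ∈ convSubring z hz ↔ ConvAt z c := Iff.rfl

/-- **Evaluation at `z`.** -/
def evalAt (z : Ω) (hz : z ≠ 0) : convSubring (K := K) z hz →+* Ω where
  toFun c := ∑' n, term z (c : BAmice K) n
  map_one' := by
    show ∑' n, term z (1 : BAmice K) n = 1
    have : term z (1 : BAmice K) = fun n => if n = 0 then 1 else 0 := funext fun n => term_one z n
    rw [this]
    exact tsum_ite_eq (0 : ℤ) (fun _ => (1 : Ω))
  map_mul' c d := (hasSum_term_mul_total hz c.2 d.2).tsum_eq
  map_zero' := by
    show ∑' n, term z (0 : BAmice K) n = 0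
    have : term z (0 : BAmice K) = fun _ => 0 := funext fun n => term_zero z n
    rw [this]
    exact tsum_zero
  map_add' c d := by
    show ∑' n, term z ((c : BAmice K) + (d : BAmice K)) n = _
    have : term z ((c : BAmice K) + (d : BAmice K)) =
        fun n => term z (c : BAmice K) n + term z (d : BAmice K) n :=
      funext fun n => term_add z (c : BAmice K) (d : BAmice K) n
    rw [this]
    exact Summable.tsum_add c.2 d.2

theorem evalAt_apply {z : Ω} {hz : z ≠ 0} (c : convSubring (K := K) z hz) :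
    evalAt z hz c = ∑' n, term z (c : BAmice K) n := rfl

/-- the evaluation is bounded by any bound of the terms -/
theorem norm_evalAt_le {z : Ω} {hz : z ≠ 0} (c : convSubring (K := K) z hz) {C : ℝ} (hC : 0 ≤ C)
    (h : ∀ n, ‖term z (c : BAmice K) n‖ ≤ C) : ‖evalAt z hz c‖ ≤ C :=
  IsUltrametricDist.norm_tsum_le_of_forall_le_of_nonneg hC h

/-! ### monomials, constants -/

theorem term_single (z : Ω) (k n : ℤ) (a : K) :
    term z (single k a) n = if n = k then algebraMap K Ω a * z ^ k else 0 := by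
  unfold term
  rw [coeff_single]
  split_ifs with h
  · subst h; rfl
  · simp

theorem convAt_single (z : Ω) (k : ℤ) (a : K) : ConvAt z (single k a) := by
  unfold ConvAt
  have : term z (single k a) = fun n => if n = k then algebraMap K Ω a * z ^ k else 0 :=
    funext fun n => term_single z k n a
  rw [this]
  exact (hasSum_ite_eq k _).summable

theorem evalAt_single {z : Ω} {hz : z ≠ 0} (k : ℤ) (a : K) :
    evalAt z hz ⟨single k a, convAt_single z k a⟩ = algebraMap K Ω a * z ^ k := by
  rw [evalAt_apply]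
  have : term z (single k a) = fun n => if n = k then algebraMap K Ω a * z ^ k else 0 :=
    funext fun n => term_single z k n a
  show ∑' n, term z (single k a) n = _
  rw [this]
  exact tsum_ite_eq k (fun _ => algebraMap K Ω a * z ^ k)

/-- the norm of a term -/
theorem norm_term (z : Ω) (c : BAmice K) (n : ℤ) : ‖term z c n‖ = ‖coeff n c‖ * ‖z‖ ^ n := by
  unfold term
  rw [norm_mul, norm_algebraMap', norm_zpow]

/-! ### convergence of the elements of the node ring -/

/-- a sequence of `Ω` indexed by `ℕ` tending to zero is summable -/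
theorem summable_nat_of_tendsto {f : ℕ → Ω} (h : Tendsto f atTop (𝓝 0)) : Summable f := by
  refine NonarchimedeanAddGroup.summable_of_tendsto_cofinite_zero ?_
  rwa [Nat.cofinite_eq_atTop]

/-- **Convergence of the node series.** A series with `‖c_{-m}‖ ≤ C ρ ^ m` converges at every `z`
with `ρ < ‖z‖ < 1`. -/
theorem convAt_of_bound {z : Ω} (hz1 : ‖z‖ < 1) {c : BAmice K} {C ρ : ℝ}
    (hρ0 : 0 ≤ ρ) (hρ : ρ < ‖z‖) (hC : ∀ m : ℕ, ‖coeff (-(m : ℤ)) c‖ ≤ C * ρ ^ m) :
    ConvAt z c := by
  have hzpos : 0 < ‖z‖ := lt_of_le_of_lt hρ0 hρ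
  refine Summable.of_nat_of_neg_add_one ?_ ?_
  · -- the nonnegative part
    refine summable_nat_of_tendsto (squeeze_zero_norm (a := fun n : ℕ => ‖c‖ * ‖z‖ ^ n)
      (fun n => ?_) ?_)
    · rw [norm_term, zpow_natCast]
      exact mul_le_mul_of_nonneg_right (norm_coeff_le _ c) (pow_nonneg (norm_nonneg _) _)
    · have := (tendsto_pow_atTop_nhds_zero_of_lt_one (norm_nonneg z) hz1).const_mul ‖c‖
      simpa using this
  · -- the negative part
    have hq0 : 0 ≤ ρ / ‖z‖ := div_nonneg hρ0 hzpos.le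
    have hq1 : ρ / ‖z‖ < 1 := (div_lt_one hzpos).mpr hρ
    refine summable_nat_of_tendsto (squeeze_zero_norm
      (a := fun n : ℕ => C * (ρ / ‖z‖) ^ (n + 1)) (fun n => ?_) ?_)
    · rw [norm_term]
      have h1 : (-((n : ℤ) + 1)) = -(((n + 1 : ℕ)) : ℤ) := by push_cast; ring
      rw [h1, zpow_neg, zpow_natCast, div_pow]
      have h2 := hC (n + 1)
      calc ‖coeff (-((n + 1 : ℕ) : ℤ)) c‖ * (‖z‖ ^ (n + 1))⁻¹
          ≤ C * ρ ^ (n + 1) * (‖z‖ ^ (n + 1))⁻¹ :=
            mul_le_mul_of_nonneg_right h2 (inv_nonneg.mpr (pow_nonneg hzpos.le _))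
        _ = C * (ρ ^ (n + 1) / ‖z‖ ^ (n + 1)) := by rw [div_eq_mul_inv]; ring
    · have h3 : Tendsto (fun n : ℕ => (ρ / ‖z‖) ^ (n + 1)) atTop (𝓝 0) :=
        (tendsto_pow_atTop_nhds_zero_of_lt_one hq0 hq1).comp (tendsto_add_atTop_nat 1)
      have := h3.const_mul C
      simpa using this

/-- the terms of a node series with `‖c_n‖ ≤ M` (`n ≥ 0`) and `‖c_{-m}‖ ≤ M ρ ^ m` are bounded by
`M` at every `z` with `ρ ≤ ‖z‖ ≤ 1` -/
theorem norm_term_le_of_bound {z : Ω} (hz0 : z ≠ 0) (hz1 : ‖z‖ ≤ 1) {c : BAmice K} {M ρ : ℝ}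
    (hM0 : 0 ≤ M) (hρ0 : 0 ≤ ρ) (hρ : ρ ≤ ‖z‖) (hpos : ∀ n : ℕ, ‖coeff (n : ℤ) c‖ ≤ M)
    (hneg : ∀ m : ℕ, ‖coeff (-(m : ℤ)) c‖ ≤ M * ρ ^ m) (n : ℤ) : ‖term z c n‖ ≤ M := by
  have hzpos : 0 < ‖z‖ := norm_pos_iff.mpr hz0
  rw [norm_term]
  rcases Int.eq_nat_or_neg n with ⟨m, rfl | rfl⟩
  · rw [zpow_natCast]
    calc ‖coeff (m : ℤ) c‖ * ‖z‖ ^ m ≤ M * 1 :=
          mul_le_mul (hpos m) (pow_le_one₀ (norm_nonneg _) hz1) (pow_nonneg (norm_nonneg _) _) hM0
      _ = M := mul_one M
  · rw [zpow_neg, zpow_natCast]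
    have hq : ρ ^ m * (‖z‖ ^ m)⁻¹ ≤ 1 := by
      rw [← div_eq_mul_inv, ← div_pow]
      exact pow_le_one₀ (div_nonneg hρ0 hzpos.le) ((div_le_one hzpos).mpr hρ)
    calc ‖coeff (-(m : ℤ)) c‖ * (‖z‖ ^ m)⁻¹ ≤ M * ρ ^ m * (‖z‖ ^ m)⁻¹ :=
          mul_le_mul_of_nonneg_right (hneg m) (inv_nonneg.mpr (pow_nonneg hzpos.le _))
      _ = M * (ρ ^ m * (‖z‖ ^ m)⁻¹) := by ring
      _ ≤ M * 1 := mul_le_mul_of_nonneg_left hq hM0
      _ = M := mul_one M

end Fermat.Agent.FF3.NodeEval
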