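/-
Programme I (S33, p-new half), block B3 (expansion layer), node §2d, part 3 (helper5):
the IDENTITY THEOREM of the node ring.

`K` a complete DISCRETELY valued field (`hdisc : ‖x‖ < ‖y‖ → ‖x‖ ≤ θ ‖y‖`, `θ < 1`), `π : K`,
`0 < ‖π‖ < 1`, `c : BAmice K` a NODE SERIES: `‖c_n‖ ≤ M` for `n ≥ 0`, `‖c_{-m}‖ ≤ M ‖π‖ ^ m`
(the elements of `W[[X,Y]]/(XY - π)[1/ϖ]` under `Y ↦ π X⁻¹`).

* `IsNodeSeries π M c`, `wt π c n` (the norm of the `n`-th normal-form coefficient);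
* `exists_max_wt` : the normal-form coefficients attain their maximum (discreteness);
* `exists_collar_ne_zero` : **(ID)** if `c ≠ 0` there is `ρ < 1` such that `c` has no zero `z` with
  `ρ < ‖z‖ < 1`, or no zero `z` with `‖π‖ < ‖z‖ < 1`, `ρ ‖z‖ < ‖π‖` — the lowest term of the
  reduction dominates near one of the two ends of the annulus.  FALSE over a non-discretely valued
  field.
* `eq_zero_of_forall_eval_eq_zero` : the form `hsep` consumed by `FF3/Expand/Abstract`: a node series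
  vanishing on a set of points meeting both collars is zero.
-/
import Mathlib
import Fermat.Agent.FF3.NodeEval.Eval

set_option autoImplicit false
set_option linter.unusedSectionVars false

noncomputable section

namespace Fermat.Agent.FF3.NodeEval

open Filter Topology Fermat.Agent.FF3.Amice Fermat.Agent.FF3.Amice.BAmice

variable {K : Type*} [NormedField K] [IsUltrametricDist K] [CompleteSpace K]
variable {Ω : Type*} [NormedField Ω] [IsUltrametricDist Ω] [CompleteSpace Ω] [NormedAlgebra K Ω]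

/-- `c` is a node series of size `M`: `‖c_n‖ ≤ M` (`n ≥ 0`), `‖c_{-m}‖ ≤ M ‖π‖ ^ m`. -/
def IsNodeSeries (π : K) (M : ℝ) (c : BAmice K) : Prop :=
  (∀ n : ℕ, ‖coeff (n : ℤ) c‖ ≤ M) ∧ ∀ m : ℕ, ‖coeff (-(m : ℤ)) c‖ ≤ M * ‖π‖ ^ m

/-- the norm of the `n`-th normal-form coefficient: `‖c_n‖` for `n ≥ 0`, `‖c_{-m}‖ / ‖π‖ ^ m` for
`n = -m < 0` -/
def wt (π : K) (c : BAmice K) (n : ℤ) : ℝ := ‖coeff n c * π ^ (min n 0)‖

theorem wt_natCast (π : K) (c : BAmice K) (n : ℕ) : wt π c (n : ℤ) = ‖coeff (n : ℤ) c‖ := by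
  unfold wt
  rw [min_eq_right (Int.natCast_nonneg n), zpow_zero, mul_one]

theorem wt_neg_natCast {π : K} (hπ : π ≠ 0) (c : BAmice K) (m : ℕ) :
    wt π c (-(m : ℤ)) * ‖π‖ ^ m = ‖coeff (-(m : ℤ)) c‖ := by
  unfold wt
  have hm : min (-(m : ℤ)) 0 = -(m : ℤ) := min_eq_left (by omega)
  rw [hm, norm_mul, norm_zpow, zpow_neg, zpow_natCast, mul_assoc,
    inv_mul_cancel₀ (pow_ne_zero _ (norm_ne_zero_iff.mpr hπ)), mul_one]

theorem wt_nonneg (π : K) (c : BAmice K) (n : ℤ) : 0 ≤ wt π c n := norm_nonneg _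

theorem wt_le_of_isNodeSeries {π : K} (hπ : π ≠ 0) {M : ℝ} {c : BAmice K}
    (h : IsNodeSeries π M c) (n : ℤ) : wt π c n ≤ M := by
  rcases Int.eq_nat_or_neg n with ⟨m, rfl | rfl⟩
  · rw [wt_natCast]
    exact h.1 m
  · have hpos : 0 < ‖π‖ ^ m := pow_pos (norm_pos_iff.mpr hπ) m
    have h1 := h.2 m
    rw [← wt_neg_natCast hπ] at h1
    exact le_of_mul_le_mul_right h1 hpos

/-- **The normal-form coefficients attain their maximum** (discreteness). -/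
theorem exists_max_wt {θ : ℝ} (hθ1 : θ < 1)
    (hdisc : ∀ x y : K, ‖x‖ < ‖y‖ → ‖x‖ ≤ θ * ‖y‖) {π : K} (hπ : π ≠ 0) {M : ℝ} {c : BAmice K}
    (h : IsNodeSeries π M c) (hc : c ≠ 0) :
    ∃ n₁ : ℤ, 0 < wt π c n₁ ∧ ∀ n, wt π c n ≤ wt π c n₁ := by
  have hθ0 : 0 ≤ θ := by
    have := hdisc 0 1 (by simp)
    simpa using this
  have hbdd : BddAbove (Set.range (wt π c)) :=
    ⟨M, by rintro _ ⟨n, rfl⟩; exact wt_le_of_isNodeSeries hπ h n⟩
  -- some coefficient is nonzero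
  obtain ⟨n₂, hn₂⟩ : ∃ n₂, coeff n₂ c ≠ 0 := by
    by_contra hcon
    push Not at hcon
    exact hc (BAmice.ext fun n => by rw [hcon n, coeff_zero])
  have hpos₂ : 0 < wt π c n₂ := by
    unfold wt
    exact norm_pos_iff.mpr (mul_ne_zero hn₂ (zpow_ne_zero _ hπ))
  set s := sSup (Set.range (wt π c)) with hs
  have hs_pos : 0 < s := lt_of_lt_of_le hpos₂ (le_csSup hbdd ⟨n₂, rfl⟩)
  have hθs : θ * s < s := by
    have := mul_lt_mul_of_pos_right hθ1 hs_pos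
    rwa [one_mul] at this
  obtain ⟨_, ⟨n₁, rfl⟩, hn₁⟩ := exists_lt_of_lt_csSup (Set.range_nonempty (wt π c)) hθs
  have hle_s : ∀ n, wt π c n ≤ s := fun n => le_csSup hbdd ⟨n, rfl⟩
  have hmax : ∀ n, wt π c n ≤ wt π c n₁ := by
    intro n
    by_contra hlt
    push Not at hlt
    have h1 : wt π c n₁ ≤ θ * wt π c n := hdisc _ _ hlt
    have h2 : θ * wt π c n ≤ θ * s := mul_le_mul_of_nonneg_left (hle_s n) hθ0
    linarith
  refine ⟨n₁, ?_, hmax⟩
  exact lt_of_lt_of_le hpos₂ (hmax n₂)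

/-- a normal-form coefficient smaller than the maximum is smaller by the factor `θ` -/
theorem wt_le_mul_of_lt {θ : ℝ} (hdisc : ∀ x y : K, ‖x‖ < ‖y‖ → ‖x‖ ≤ θ * ‖y‖) (π : K)
    (c : BAmice K) {n n₁ : ℤ} (h : wt π c n < wt π c n₁) : wt π c n ≤ θ * wt π c n₁ :=
  hdisc _ _ h

/-- the norm of a term of nonnegative index -/
theorem norm_term_natCast (π : K) (z : Ω) (c : BAmice K) (m : ℕ) :
    ‖term z c (m : ℤ)‖ = wt π c (m : ℤ) * ‖z‖ ^ m := by
  rw [norm_term, wt_natCast, zpow_natCast]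

/-- the norm of a term of nonpositive index -/
theorem norm_term_neg_natCast {π : K} (hπ : π ≠ 0) (z : Ω) (c : BAmice K) (m : ℕ) :
    ‖term z c (-(m : ℤ))‖ = wt π c (-(m : ℤ)) * (‖π‖ / ‖z‖) ^ m := by
  rw [norm_term, ← wt_neg_natCast hπ, zpow_neg, zpow_natCast, div_pow, div_eq_mul_inv]
  ring

/-- for `a < 1` and `k`, some `ρ ∈ (0, 1)` has `a < ρ ^ k` -/
theorem exists_pow_gt {a : ℝ} (ha : a < 1) (k : ℕ) : ∃ ρ : ℝ, 0 < ρ ∧ ρ < 1 ∧ a < ρ ^ k := by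
  have hcont : ContinuousAt (fun x : ℝ => x ^ k) 1 := (continuous_pow k).continuousAt
  have h1 : ∀ᶠ x in 𝓝 (1 : ℝ), a < x ^ k :=
    hcont.eventually (lt_mem_nhds (by simpa using ha))
  have h2 : ∀ᶠ x in 𝓝[<] (1 : ℝ), a < x ^ k := h1.filter_mono nhdsWithin_le_nhds
  have h3 : ∀ᶠ x in 𝓝[<] (1 : ℝ), x ∈ Set.Ioo (0 : ℝ) 1 := Ioo_mem_nhdsLT zero_lt_one
  obtain ⟨ρ, h, h'⟩ := (h2.and h3).exists
  exact ⟨ρ, h'.1, h'.2, h⟩

/-- **(ID) Identity theorem of the node ring.** A nonzero node series over a discretely valued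
field has no zero in a collar at one of the two ends of the annulus `‖π‖ < ‖z‖ < 1`. -/
theorem exists_collar_ne_zero {θ : ℝ} (hθ1 : θ < 1)
    (hdisc : ∀ x y : K, ‖x‖ < ‖y‖ → ‖x‖ ≤ θ * ‖y‖) {π : K} (hπ0 : π ≠ 0) (hπ1 : ‖π‖ < 1)
    {M : ℝ} {c : BAmice K} (h : IsNodeSeries π M c) (hc : c ≠ 0) :
    ∃ ρ : ℝ, 0 < ρ ∧ ρ < 1 ∧
      ((∀ z : Ω, ρ < ‖z‖ → ‖z‖ < 1 → ∑' n, term z c n ≠ 0) ∨
       (∀ z : Ω, ‖π‖ < ‖z‖ → ‖z‖ < 1 → ρ * ‖z‖ < ‖π‖ → ∑' n, term z c n ≠ 0)) := by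
  classical
  have hθ0 : 0 ≤ θ := by
    have := hdisc 0 1 (by simp)
    simpa using this
  have hπpos : 0 < ‖π‖ := norm_pos_iff.mpr hπ0
  obtain ⟨n₁, hpos, hmax⟩ := exists_max_wt hθ1 hdisc hπ0 h hc
  set M₀ := wt π c n₁ with hM₀
  have hsmall : ∀ n, wt π c n ≠ M₀ → wt π c n ≤ θ * M₀ := fun n hn =>
    wt_le_mul_of_lt hdisc π c (lt_of_le_of_ne (hmax n) hn)
  by_cases hA : ∃ n : ℕ, wt π c (n : ℤ) = M₀
  · -- the maximum is attained at a nonnegative index: outer collar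
    set n₀ := Nat.find hA with hn₀
    have h₀ : wt π c (n₀ : ℤ) = M₀ := Nat.find_spec hA
    have hlow : ∀ m : ℕ, m < n₀ → wt π c (m : ℤ) ≤ θ * M₀ := fun m hm =>
      hsmall _ (Nat.find_min hA hm)
    obtain ⟨ρ, hρ0, hρ1, hρk⟩ := exists_pow_gt (max_lt hθ1 hπ1) (n₀ + 1)
    refine ⟨ρ, hρ0, hρ1, Or.inl fun z hρz hz1 => ?_⟩
    have hzpos : 0 < ‖z‖ := hρ0.trans hρz
    have hz0 : z ≠ 0 := norm_pos_iff.mp hzpos
    have hk : max θ ‖π‖ < ‖z‖ ^ (n₀ + 1) :=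
      hρk.trans_le (pow_le_pow_left₀ hρ0.le hρz.le _)
    have hθz : θ < ‖z‖ ^ n₀ :=
      ((le_max_left _ _).trans_lt hk).trans_le
        (pow_le_pow_of_le_one (norm_nonneg z) hz1.le (Nat.le_succ n₀))
    have hπz : ‖π‖ < ‖z‖ ^ (n₀ + 1) := (le_max_right _ _).trans_lt hk
    have hπz' : ‖π‖ < ‖z‖ := by
      refine hπz.trans_le ?_
      calc ‖z‖ ^ (n₀ + 1) ≤ ‖z‖ ^ 1 :=
            pow_le_pow_of_le_one (norm_nonneg z) hz1.le (Nat.succ_le_succ (Nat.zero_le n₀))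
        _ = ‖z‖ := pow_one _
    have hsum : Summable (term z c) := convAt_of_bound hz1 (norm_nonneg π) hπz' h.2
    have hq0 : 0 ≤ ‖π‖ / ‖z‖ := div_nonneg hπpos.le hzpos.le
    have hq1 : ‖π‖ / ‖z‖ < 1 := (div_lt_one hzpos).mpr hπz'
    have hdom : ‖term z c (n₀ : ℤ)‖ = M₀ * ‖z‖ ^ n₀ := by
      rw [norm_term_natCast π, h₀]
    have hzn0 : 0 < ‖z‖ ^ n₀ := pow_pos hzpos n₀
    -- the bound for the other terms
    set r := max (θ * M₀) (max (M₀ * ‖z‖ ^ (n₀ + 1)) (M₀ * (‖π‖ / ‖z‖))) with hr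
    have hr0 : 0 ≤ r := le_max_of_le_left (mul_nonneg hθ0 hpos.le)
    have hrlt : r < ‖term z c (n₀ : ℤ)‖ := by
      rw [hdom]
      refine max_lt ?_ (max_lt ?_ ?_)
      · rw [mul_comm θ M₀]
        exact mul_lt_mul_of_pos_left hθz hpos
      · refine mul_lt_mul_of_pos_left ?_ hpos
        rw [pow_succ]
        calc ‖z‖ ^ n₀ * ‖z‖ < ‖z‖ ^ n₀ * 1 := mul_lt_mul_of_pos_left hz1 hzn0
          _ = ‖z‖ ^ n₀ := mul_one _
      · refine mul_lt_mul_of_pos_left ?_ hpos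
        rw [div_lt_iff₀ hzpos, ← pow_succ]
        exact hπz
    have hle : ∀ n : ℤ, n ≠ (n₀ : ℤ) → ‖term z c n‖ ≤ r := by
      intro n hn
      rcases le_or_gt 0 n with hn0 | hn0
      · obtain ⟨m, rfl⟩ := Int.eq_ofNat_of_zero_le hn0
        have hm : m ≠ n₀ := fun e => hn (by rw [e])
        rw [norm_term_natCast π]
        rcases lt_or_gt_of_ne hm with hlt | hgt
        · refine le_max_of_le_left ?_
          calc wt π c (m : ℤ) * ‖z‖ ^ m ≤ θ * M₀ * 1 :=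
                mul_le_mul (hlow m hlt) (pow_le_one₀ (norm_nonneg z) hz1.le)
                  (pow_nonneg (norm_nonneg z) _) (mul_nonneg hθ0 hpos.le)
            _ = θ * M₀ := mul_one _
        · refine le_max_of_le_right (le_max_of_le_left ?_)
          exact mul_le_mul (hmax _) (pow_le_pow_of_le_one (norm_nonneg z) hz1.le hgt)
            (pow_nonneg (norm_nonneg z) _) hpos.le
      · obtain ⟨m, rfl⟩ := Int.eq_negSucc_of_lt_zero hn0
        have e : Int.negSucc m = -((m + 1 : ℕ) : ℤ) := by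
          rw [Int.negSucc_eq]; push_cast; ring
        rw [e, norm_term_neg_natCast hπ0]
        refine le_max_of_le_right (le_max_of_le_right ?_)
        refine mul_le_mul (hmax _) ?_ (pow_nonneg hq0 _) hpos.le
        calc (‖π‖ / ‖z‖) ^ (m + 1) ≤ (‖π‖ / ‖z‖) ^ 1 :=
              pow_le_pow_of_le_one hq0 hq1.le (Nat.succ_le_succ (Nat.zero_le m))
          _ = ‖π‖ / ‖z‖ := pow_one _
    have hnorm := norm_tsum_eq_of_dominant hsum (n₀ : ℤ) hr0 hrlt hle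
    intro hzero
    rw [hzero, norm_zero] at hnorm
    rw [← hnorm] at hrlt
    exact absurd hrlt (not_lt.mpr hr0)
  · -- the maximum is attained at negative indices only: inner collar
    push Not at hA
    have hnonneg : ∀ m : ℕ, wt π c (m : ℤ) ≤ θ * M₀ := fun m => hsmall _ (hA m)
    have hB : ∃ m : ℕ, wt π c (-(m : ℤ)) = M₀ := by
      rcases Int.eq_nat_or_neg n₁ with ⟨m, rfl | rfl⟩
      · exact absurd rfl (hA m)
      · exact ⟨m, rfl⟩
    set m₀ := Nat.find hB with hm₀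
    have h₀ : wt π c (-(m₀ : ℤ)) = M₀ := Nat.find_spec hB
    have hlow : ∀ m : ℕ, m < m₀ → wt π c (-(m : ℤ)) ≤ θ * M₀ := fun m hm =>
      hsmall _ (Nat.find_min hB hm)
    obtain ⟨ρ, hρ0, hρ1, hρk⟩ := exists_pow_gt hθ1 m₀
    refine ⟨ρ, hρ0, hρ1, Or.inr fun z hπz hz1 hρz => ?_⟩
    have hzpos : 0 < ‖z‖ := hπpos.trans hπz
    have hz0 : z ≠ 0 := norm_pos_iff.mp hzpos
    have hsum : Summable (term z c) := convAt_of_bound hz1 (norm_nonneg π) hπz h.2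
    set t := ‖π‖ / ‖z‖ with ht
    have ht0 : 0 < t := div_pos hπpos hzpos
    have ht1 : t < 1 := (div_lt_one hzpos).mpr hπz
    have hρt : ρ < t := (lt_div_iff₀ hzpos).mpr hρz
    have hθt : θ < t ^ m₀ := hρk.trans_le (pow_le_pow_left₀ hρ0.le hρt.le _)
    have hdom : ‖term z c (-(m₀ : ℤ))‖ = M₀ * t ^ m₀ := by
      rw [norm_term_neg_natCast hπ0, h₀]
    have htm0 : 0 < t ^ m₀ := pow_pos ht0 m₀
    set r := max (θ * M₀) (M₀ * t ^ (m₀ + 1)) with hr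
    have hr0 : 0 ≤ r := le_max_of_le_left (mul_nonneg hθ0 hpos.le)
    have hrlt : r < ‖term z c (-(m₀ : ℤ))‖ := by
      rw [hdom]
      refine max_lt ?_ ?_
      · rw [mul_comm θ M₀]
        exact mul_lt_mul_of_pos_left hθt hpos
      · refine mul_lt_mul_of_pos_left ?_ hpos
        rw [pow_succ]
        calc t ^ m₀ * t < t ^ m₀ * 1 := mul_lt_mul_of_pos_left ht1 htm0
          _ = t ^ m₀ := mul_one _
    have hle : ∀ n : ℤ, n ≠ -(m₀ : ℤ) → ‖term z c n‖ ≤ r := by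
      intro n hn
      rcases Int.eq_nat_or_neg n with ⟨m, rfl | rfl⟩
      · rw [norm_term_natCast π]
        refine le_max_of_le_left ?_
        calc wt π c (m : ℤ) * ‖z‖ ^ m ≤ θ * M₀ * 1 :=
              mul_le_mul (hnonneg m) (pow_le_one₀ (norm_nonneg z) hz1.le)
                (pow_nonneg (norm_nonneg z) _) (mul_nonneg hθ0 hpos.le)
          _ = θ * M₀ := mul_one _
      · have hm : m ≠ m₀ := fun e => hn (by rw [e])
        rw [norm_term_neg_natCast hπ0]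
        rcases lt_or_gt_of_ne hm with hlt | hgt
        · refine le_max_of_le_left ?_
          calc wt π c (-(m : ℤ)) * t ^ m ≤ θ * M₀ * 1 :=
                mul_le_mul (hlow m hlt) (pow_le_one₀ ht0.le ht1.le) (pow_nonneg ht0.le _)
                  (mul_nonneg hθ0 hpos.le)
            _ = θ * M₀ := mul_one _
        · refine le_max_of_le_right ?_
          exact mul_le_mul (hmax _) (pow_le_pow_of_le_one ht0.le ht1.le hgt)
            (pow_nonneg ht0.le _) hpos.le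
    have hnorm := norm_tsum_eq_of_dominant hsum (-(m₀ : ℤ)) hr0 hrlt hle
    intro hzero
    rw [hzero, norm_zero] at hnorm
    rw [← hnorm] at hrlt
    exact absurd hrlt (not_lt.mpr hr0)

/-- **The separation property `hsep`.** A node series vanishing on a set of points of the open
annulus which meets every collar at both ends is zero. -/
theorem eq_zero_of_forall_eval_eq_zero {θ : ℝ} (hθ1 : θ < 1)
    (hdisc : ∀ x y : K, ‖x‖ < ‖y‖ → ‖x‖ ≤ θ * ‖y‖) {π : K} (hπ0 : π ≠ 0) (hπ1 : ‖π‖ < 1)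
    {M : ℝ} {c : BAmice K} (h : IsNodeSeries π M c) {Z : Set Ω}
    (hZ : ∀ z ∈ Z, ‖π‖ < ‖z‖ ∧ ‖z‖ < 1)
    (houter : ∀ ρ : ℝ, ρ < 1 → ∃ z ∈ Z, ρ < ‖z‖)
    (hinner : ∀ ρ : ℝ, ρ < 1 → ∃ z ∈ Z, ρ * ‖z‖ < ‖π‖)
    (hzero : ∀ z ∈ Z, ∑' n, term z c n = 0) : c = 0 := by
  by_contra hc
  obtain ⟨ρ, -, hρ1, hout | hin⟩ := exists_collar_ne_zero (Ω := Ω) hθ1 hdisc hπ0 hπ1 h hc
  · obtain ⟨z, hz, hρz⟩ := houter ρ hρ1
    exact hout z hρz (hZ z hz).2 (hzero z hz)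
  · obtain ⟨z, hz, hρz⟩ := hinner ρ hρ1
    exact hin z (hZ z hz).1 (hZ z hz).2 hρz (hzero z hz)

end Fermat.Agent.FF3.NodeEval
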