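/-
Programme I (S33, p-new half), block B3 (expansion layer), node §2d, part 4 (helper5):
the NODE TARGET, generically over a MODEL of the node ring.

`K` a complete ultrametric normed field, `π : K`, `0 < ‖π‖ < 1`.  A `NodeModel π B` is a commutative
ring `B` with an injective ring homomorphism `tx : B →+* BAmice K` (the `X`-expansion, `Y ↦ π X⁻¹`)
whose image is exactly the set of node series of size `1`
(`‖c_n‖ ≤ 1` for `n ≥ 0`, `‖c_{-m}‖ ≤ ‖π‖ ^ m`): a model of `W[[X,Y]]/(XY - π)`.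

* `CircleLe r C g` : the Gauss bound `‖g_k‖ r ^ k ≤ C` on the circle of radius `r`; it is
  ultrametric and submultiplicative (`CircleLe.add`, `CircleLe.mul`);
* `NodeModel.evalB z h1 h2 : B →+* Ω` : evaluation at a point of the open annulus
  `‖π‖ < ‖z‖ < 1`, with `norm_evalB_le`, `evalB_of_single`;
* `NodeModel.circleLe_of_mem_pow` : an element of `(ϖ, X, Y) ^ n` has Gauss bound `ρ ^ n` on the
  circle of radius `r`, `ρ = max ‖ϖ‖ (max r (‖π‖ / r))`;
* `NodeModel.exists_limit`, `NodeModel.complete` : **the completeness of the node ring in the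
  pointwise form** consumed by `FF3/Expand/Abstract` (field `complete` of `ExpData`);
* `NodeModel.ident` : **(ID)**, the two-ended identity theorem, for `K` discretely valued;
* `NodeModel.constHom`, `NodeModel.Xel`, `NodeModel.Yel` : the constants and the coordinates.
-/
import Mathlib
import Fermat.Agent.FF3.NodeEval.Identity

set_option autoImplicit false
set_option linter.unusedSectionVars false

noncomputable section

namespace Fermat.Agent.FF3.NodeEval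

open Filter Topology Fermat.Agent.FF3.Amice Fermat.Agent.FF3.Amice.BAmice

variable {K : Type*} [NormedField K] [IsUltrametricDist K] [CompleteSpace K]
variable {Ω : Type*} [NormedField Ω] [IsUltrametricDist Ω] [CompleteSpace Ω] [NormedAlgebra K Ω]

/-! ### Gauss bounds on circles -/

/-- the Gauss bound on the circle of radius `r`: `‖g_k‖ r ^ k ≤ C` for all `k` -/
def CircleLe (r C : ℝ) (g : BAmice K) : Prop := ∀ k : ℤ, ‖coeff k g‖ * r ^ k ≤ C

namespace CircleLe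

variable {r C D : ℝ} {g h : BAmice K}

theorem mono (hg : CircleLe r C g) (hCD : C ≤ D) : CircleLe r D g := fun k => (hg k).trans hCD

theorem zero (hC : 0 ≤ C) : CircleLe r C (0 : BAmice K) := fun k => by
  rw [coeff_zero, norm_zero, zero_mul]
  exact hC

theorem add (hr : 0 ≤ r) (hg : CircleLe r C g) (hh : CircleLe r C h) : CircleLe r C (g + h) := by
  intro k
  rw [coeff_add]
  have h0 : 0 ≤ r ^ k := zpow_nonneg hr k
  rcases le_total ‖coeff k g‖ ‖coeff k h‖ with h1 | h1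
  · exact (mul_le_mul_of_nonneg_right
      ((IsUltrametricDist.norm_add_le_max _ _).trans (max_le h1 le_rfl)) h0).trans (hh k)
  · exact (mul_le_mul_of_nonneg_right
      ((IsUltrametricDist.norm_add_le_max _ _).trans (max_le le_rfl h1)) h0).trans (hg k)

theorem neg (hg : CircleLe r C g) : CircleLe r C (-g) := fun k => by
  rw [coeff_neg, norm_neg]
  exact hg k

theorem sub (hr : 0 ≤ r) (hg : CircleLe r C g) (hh : CircleLe r C h) : CircleLe r C (g - h) := by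
  rw [sub_eq_add_neg]
  exact hg.add hr hh.neg

/-- the Gauss bounds are submultiplicative -/
theorem mul (hr : 0 < r) (hC : 0 ≤ C) (hD : 0 ≤ D) (hg : CircleLe r C g) (hh : CircleLe r D h) :
    CircleLe r (C * D) (g * h) := by
  intro k
  have hrk : 0 < r ^ k := zpow_pos hr k
  have key : ‖coeff k (g * h)‖ ≤ C * D * (r ^ k)⁻¹ := by
    rw [coeff_mul]
    refine IsUltrametricDist.norm_tsum_le_of_forall_le_of_nonneg
      (mul_nonneg (mul_nonneg hC hD) (inv_nonneg.mpr hrk.le)) fun i => ?_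
    rw [norm_mul]
    have e : r ^ k = r ^ i * r ^ (k - i) := by
      rw [← zpow_add₀ hr.ne']
      congr 1
      ring
    have hi : 0 < r ^ i := zpow_pos hr i
    have hki : 0 < r ^ (k - i) := zpow_pos hr _
    have h1' : ‖coeff i g‖ ≤ C * (r ^ i)⁻¹ := (le_mul_inv_iff₀ hi).mpr (hg i)
    have h2' : ‖coeff (k - i) h‖ ≤ D * (r ^ (k - i))⁻¹ := (le_mul_inv_iff₀ hki).mpr (hh (k - i))
    calc ‖coeff i g‖ * ‖coeff (k - i) h‖ ≤ (C * (r ^ i)⁻¹) * (D * (r ^ (k - i))⁻¹) :=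
          mul_le_mul h1' h2' (norm_nonneg _) (mul_nonneg hC (inv_nonneg.mpr hi.le))
      _ = C * D * (r ^ k)⁻¹ := by rw [e, mul_inv]; ring
  calc ‖coeff k (g * h)‖ * r ^ k ≤ C * D * (r ^ k)⁻¹ * r ^ k :=
        mul_le_mul_of_nonneg_right key hrk.le
    _ = C * D := by rw [mul_assoc, inv_mul_cancel₀ hrk.ne', mul_one]

/-- the Gauss bounds pass to coefficientwise limits -/
theorem of_tendsto {gs : ℕ → BAmice K}
    (hlim : ∀ k, Tendsto (fun m => coeff k (gs m)) atTop (𝓝 (coeff k g)))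
    (hgs : ∀ᶠ m in atTop, CircleLe r C (gs m)) : CircleLe r C g := by
  intro k
  have h1 : Tendsto (fun m => ‖coeff k (gs m)‖ * r ^ k) atTop (𝓝 (‖coeff k g‖ * r ^ k)) :=
    ((continuous_norm.tendsto _).comp (hlim k)).mul_const _
  exact le_of_tendsto h1 (hgs.mono fun m hm => hm k)

end CircleLe

theorem circleLe_single {r : ℝ} (hr : 0 ≤ r) (k : ℤ) (a : K) :
    CircleLe r (‖a‖ * r ^ k) (single k a) := by
  intro n
  rw [coeff_single]
  split_ifs with h
  · subst h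
    exact le_rfl
  · rw [norm_zero, zero_mul]
    exact mul_nonneg (norm_nonneg _) (zpow_nonneg hr _)

/-- a node series of size `M` has Gauss bound `M` on every circle of radius `‖π‖ ≤ r ≤ 1` -/
theorem circleLe_of_isNodeSeries {π : K} (hπ : π ≠ 0) {r : ℝ} (hr : ‖π‖ ≤ r) (hr1 : r ≤ 1)
    {M : ℝ} (hM : 0 ≤ M) {c : BAmice K} (h : IsNodeSeries π M c) : CircleLe r M c := by
  have hπpos : 0 < ‖π‖ := norm_pos_iff.mpr hπ
  have hrpos : 0 < r := lt_of_lt_of_le hπpos hr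
  intro k
  rcases Int.eq_nat_or_neg k with ⟨m, rfl | rfl⟩
  · rw [zpow_natCast]
    calc ‖coeff (m : ℤ) c‖ * r ^ m ≤ M * 1 :=
          mul_le_mul (h.1 m) (pow_le_one₀ hrpos.le hr1) (pow_nonneg hrpos.le _) hM
      _ = M := mul_one M
  · rw [zpow_neg, zpow_natCast]
    have hq : ‖π‖ ^ m * (r ^ m)⁻¹ ≤ 1 := by
      rw [← div_eq_mul_inv, ← div_pow]
      exact pow_le_one₀ (div_nonneg hπpos.le hrpos.le) ((div_le_one hrpos).mpr hr)
    calc ‖coeff (-(m : ℤ)) c‖ * (r ^ m)⁻¹ ≤ M * ‖π‖ ^ m * (r ^ m)⁻¹ :=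
          mul_le_mul_of_nonneg_right (h.2 m) (inv_nonneg.mpr (pow_nonneg hrpos.le _))
      _ = M * (‖π‖ ^ m * (r ^ m)⁻¹) := by ring
      _ ≤ M * 1 := mul_le_mul_of_nonneg_left hq hM
      _ = M := mul_one M

/-- conversely, the Gauss bounds on the two boundary circles give a node series -/
theorem isNodeSeries_of_circleLe {π : K} (hπ : π ≠ 0) {M : ℝ} {c : BAmice K}
    (h1 : CircleLe 1 M c) (h2 : CircleLe ‖π‖ M c) : IsNodeSeries π M c := by
  have hπpos : 0 < ‖π‖ := norm_pos_iff.mpr hπ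
  refine ⟨fun n => ?_, fun m => ?_⟩
  · have := h1 (n : ℤ)
    rwa [one_zpow, mul_one] at this
  · have := h2 (-(m : ℤ))
    rw [zpow_neg, zpow_natCast] at this
    exact (mul_inv_le_iff₀ (pow_pos hπpos m)).mp this

theorem tsum_term_single (z : Ω) (k : ℤ) (a : K) :
    ∑' n, term z (single k a) n = algebraMap K Ω a * z ^ k := by
  have : term z (single k a) = fun n => if n = k then algebraMap K Ω a * z ^ k else 0 :=
    funext fun n => term_single z k n a
  rw [this]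
  exact tsum_ite_eq k (fun _ => algebraMap K Ω a * z ^ k)

/-- a series with Gauss bound `C` on the circle through `z` has value of norm at most `C` -/
theorem norm_tsum_term_le_of_circleLe {z : Ω} {C : ℝ} (hC : 0 ≤ C) {c : BAmice K}
    (h : CircleLe ‖z‖ C c) : ‖∑' n, term z c n‖ ≤ C :=
  IsUltrametricDist.norm_tsum_le_of_forall_le_of_nonneg hC fun n => by
    rw [norm_term]
    exact h n

/-! ### models of the node ring -/

/-- A model of the node ring `W[[X,Y]]/(XY - π)`: a ring with an injective `X`-expansion whose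
image is the set of node series of size `1`. -/
structure NodeModel {K : Type*} [NormedField K] [IsUltrametricDist K] [CompleteSpace K] (π : K)
    (B : Type*) [CommRing B] where
  /-- the `X`-expansion -/
  tx : B →+* BAmice K
  tx_injective : Function.Injective tx
  isNodeSeries_tx : ∀ b, IsNodeSeries π 1 (tx b)
  exists_tx_eq : ∀ c, IsNodeSeries π 1 c → ∃ b, tx b = c

namespace NodeModel

variable {π : K} {B : Type*} [CommRing B] (M : NodeModel π B)

theorem circleLe_tx (hπ0 : π ≠ 0) {r : ℝ} (hr : ‖π‖ ≤ r) (hr1 : r ≤ 1) (b : B) :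
    CircleLe r 1 (M.tx b) :=
  circleLe_of_isNodeSeries hπ0 hr hr1 zero_le_one (M.isNodeSeries_tx b)

/-! #### evaluation -/

theorem convAt_tx {z : Ω} (h1 : ‖π‖ < ‖z‖) (h2 : ‖z‖ < 1) (b : B) : ConvAt z (M.tx b) :=
  convAt_of_bound h2 (norm_nonneg π) h1 (C := 1) fun m => (M.isNodeSeries_tx b).2 m

theorem ne_zero_of_lt {z : Ω} (h1 : ‖π‖ < ‖z‖) : z ≠ 0 :=
  norm_pos_iff.mp (lt_of_le_of_lt (norm_nonneg π) h1)

/-- **evaluation of the node ring at a point of the open annulus** -/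
def evalB (z : Ω) (h1 : ‖π‖ < ‖z‖) (h2 : ‖z‖ < 1) : B →+* Ω :=
  (evalAt z (ne_zero_of_lt h1)).comp
    (M.tx.codRestrict (convSubring z (ne_zero_of_lt h1)) fun b => M.convAt_tx h1 h2 b)

theorem evalB_apply (z : Ω) (h1 : ‖π‖ < ‖z‖) (h2 : ‖z‖ < 1) (b : B) :
    M.evalB z h1 h2 b = ∑' n, term z (M.tx b) n := rfl

theorem norm_evalB_le (z : Ω) (h1 : ‖π‖ < ‖z‖) (h2 : ‖z‖ < 1) (b : B) :
    ‖M.evalB z h1 h2 b‖ ≤ 1 := by
  rw [evalB_apply]
  exact IsUltrametricDist.norm_tsum_le_of_forall_le_of_nonneg zero_le_one fun n =>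
    norm_term_le_of_bound (ne_zero_of_lt h1) h2.le zero_le_one (norm_nonneg π) h1.le
      (M.isNodeSeries_tx b).1 (M.isNodeSeries_tx b).2 n

theorem evalB_of_single (z : Ω) (h1 : ‖π‖ < ‖z‖) (h2 : ‖z‖ < 1) {b : B} {k : ℤ} {a : K}
    (hb : M.tx b = single k a) : M.evalB z h1 h2 b = algebraMap K Ω a * z ^ k := by
  rw [evalB_apply, hb, tsum_term_single]

theorem norm_evalB_le_of_circleLe (z : Ω) (h1 : ‖π‖ < ‖z‖) (h2 : ‖z‖ < 1) {b : B} {C : ℝ}
    (hC : 0 ≤ C) (h : CircleLe ‖z‖ C (M.tx b)) : ‖M.evalB z h1 h2 b‖ ≤ C := by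
  rw [evalB_apply]
  exact norm_tsum_term_le_of_circleLe hC h

/-! #### the powers of the maximal ideal -/

/-- the ideal of the elements with Gauss bound `C` on the circle of radius `r` -/
def circleIdeal (hπ0 : π ≠ 0) (r : ℝ) (hr : ‖π‖ ≤ r) (hr1 : r ≤ 1) (C : ℝ) (hC : 0 ≤ C) :
    Ideal B where
  carrier := {g | CircleLe r C (M.tx g)}
  add_mem' := fun {a b} ha hb => by
    show CircleLe r C (M.tx (a + b))
    rw [map_add]
    exact CircleLe.add ((norm_nonneg π).trans hr) ha hb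
  zero_mem' := by
    show CircleLe r C (M.tx 0)
    rw [map_zero]
    exact CircleLe.zero hC
  smul_mem' := fun b g hg => by
    show CircleLe r C (M.tx (b • g))
    rw [smul_eq_mul, map_mul]
    have h := (M.circleLe_tx hπ0 hr hr1 b).mul
      (lt_of_lt_of_le (norm_pos_iff.mpr hπ0) hr) zero_le_one hC hg
    rwa [one_mul] at h

theorem mem_circleIdeal (hπ0 : π ≠ 0) {r : ℝ} (hr : ‖π‖ ≤ r) (hr1 : r ≤ 1) {C : ℝ} (hC : 0 ≤ C)
    {g : B} : g ∈ M.circleIdeal hπ0 r hr hr1 C hC ↔ CircleLe r C (M.tx g) := Iff.rfl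

/-- **an element of `(ϖ, X, Y) ^ n` has Gauss bound `ρ ^ n`** on the circle of radius `r`, for
`ρ ≥ ‖ϖ‖, r, ‖π‖ / r` -/
theorem circleLe_of_mem_pow (hπ0 : π ≠ 0) {ϖ : K} {ϖB X Y : B} (hϖ : M.tx ϖB = single 0 ϖ)
    (hX : M.tx X = single 1 1) (hY : M.tx Y = single (-1) π) {r : ℝ} (hr : ‖π‖ ≤ r) (hr1 : r ≤ 1)
    {ρ : ℝ} (hρϖ : ‖ϖ‖ ≤ ρ) (hρr : r ≤ ρ) (hρπ : ‖π‖ / r ≤ ρ) (n : ℕ) {g : B}
    (hg : g ∈ Ideal.span {ϖB, X, Y} ^ n) : CircleLe r (ρ ^ n) (M.tx g) := by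
  have hr0 : 0 ≤ r := (norm_nonneg π).trans hr
  have hrpos : 0 < r := lt_of_lt_of_le (norm_pos_iff.mpr hπ0) hr
  have hρ0 : 0 ≤ ρ := hr0.trans hρr
  have h1 : Ideal.span {ϖB, X, Y} ≤ M.circleIdeal hπ0 r hr hr1 ρ hρ0 := by
    refine Ideal.span_le.mpr ?_
    rintro g (rfl | rfl | rfl)
    · show CircleLe r ρ (M.tx g)
      rw [hϖ]
      refine (circleLe_single hr0 0 ϖ).mono ?_
      rwa [zpow_zero, mul_one]
    · show CircleLe r ρ (M.tx g)
      rw [hX]
      refine (circleLe_single hr0 1 1).mono ?_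
      rwa [zpow_one, norm_one, one_mul]
    · show CircleLe r ρ (M.tx g)
      rw [hY]
      refine (circleLe_single hr0 (-1) π).mono ?_
      rwa [zpow_neg, zpow_one, ← div_eq_mul_inv]
  have h2 : ∀ n : ℕ, M.circleIdeal hπ0 r hr hr1 ρ hρ0 ^ n ≤
      M.circleIdeal hπ0 r hr hr1 (ρ ^ n) (pow_nonneg hρ0 n) := by
    intro n
    induction n with
    | zero =>
      intro z _
      rw [mem_circleIdeal, pow_zero]
      exact M.circleLe_tx hπ0 hr hr1 z
    | succ n ih =>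
      rw [pow_succ]
      refine Ideal.mul_le.mpr fun a ha b hb => ?_
      rw [mem_circleIdeal, map_mul, pow_succ]
      exact CircleLe.mul hrpos (pow_nonneg hρ0 n) hρ0 (ih ha) hb
  exact h2 n (Ideal.pow_right_mono h1 n hg)

/-! #### completeness -/

theorem sub_mem_pow_of_le {I : Ideal B} {f : ℕ → B} (hf : ∀ n, f (n + 1) - f n ∈ I ^ n) {n m : ℕ}
    (hnm : n ≤ m) : f m - f n ∈ I ^ n := by
  induction m, hnm using Nat.le_induction with
  | base => rw [sub_self]; exact zero_mem _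
  | succ m hnm ih =>
    have : f (m + 1) - f n = (f (m + 1) - f m) + (f m - f n) := by ring
    rw [this]
    exact add_mem (Ideal.pow_le_pow_right hnm (hf m)) ih

/-- **Completeness of the node ring, coefficient form**: a `(ϖ, X, Y)`-adic Cauchy sequence has a
limit `l`, with `l - f n` of Gauss bound `ρ ^ n` on every circle. -/
theorem exists_limit (hπ0 : π ≠ 0) (hπ1 : ‖π‖ < 1) {ϖ : K} (hϖ1 : ‖ϖ‖ < 1) {ϖB X Y : B}
    (hϖ : M.tx ϖB = single 0 ϖ) (hX : M.tx X = single 1 1) (hY : M.tx Y = single (-1) π)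
    (f : ℕ → B) (hf : ∀ n, f (n + 1) - f n ∈ Ideal.span {ϖB, X, Y} ^ n) :
    ∃ l : B, ∀ (n : ℕ) (r ρ : ℝ), ‖π‖ ≤ r → r ≤ 1 → ‖ϖ‖ ≤ ρ → r ≤ ρ → ‖π‖ / r ≤ ρ →
      CircleLe r (ρ ^ n) (M.tx (l - f n)) := by
  have hπpos : 0 < ‖π‖ := norm_pos_iff.mpr hπ0
  -- a reference circle
  set r₀ : ℝ := (‖π‖ + 1) / 2 with hr₀
  have hr₀π : ‖π‖ < r₀ := by rw [hr₀]; linarith
  have hr₀1 : r₀ < 1 := by rw [hr₀]; linarith
  have hr₀pos : 0 < r₀ := hπpos.trans hr₀π
  set ρ₀ : ℝ := max ‖ϖ‖ (max r₀ (‖π‖ / r₀)) with hρ₀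
  have hρ₀1 : ρ₀ < 1 := max_lt hϖ1 (max_lt hr₀1 ((div_lt_one hr₀pos).mpr hr₀π))
  have hρ₀0 : 0 ≤ ρ₀ := (norm_nonneg ϖ).trans (le_max_left _ _)
  have hstep : ∀ n, CircleLe r₀ (ρ₀ ^ n) (M.tx (f (n + 1) - f n)) := fun n =>
    M.circleLe_of_mem_pow hπ0 hϖ hX hY hr₀π.le hr₀1.le (le_max_left _ _)
      ((le_max_left _ _).trans (le_max_right _ _)) ((le_max_right _ _).trans (le_max_right _ _))
      n (hf n)
  -- the coefficients converge
  have hcauchy : ∀ k : ℤ, CauchySeq fun n => coeff k (M.tx (f n)) := by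
    intro k
    refine cauchySeq_of_le_geometric ρ₀ ((r₀ ^ k)⁻¹) hρ₀1 fun n => ?_
    rw [dist_comm, dist_eq_norm, ← map_sub, ← map_sub]
    have := hstep n k
    rw [mul_comm]
    exact (le_mul_inv_iff₀ (zpow_pos hr₀pos k)).mpr this
  choose ℓ hℓ using fun k => cauchySeq_tendsto_of_complete (hcauchy k)
  -- the limit is a node series of size `1`
  have hℓpos : ∀ n : ℕ, ‖ℓ (n : ℤ)‖ ≤ 1 := fun n =>
    le_of_tendsto' ((continuous_norm.tendsto _).comp (hℓ (n : ℤ)))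
      fun m => (M.isNodeSeries_tx (f m)).1 n
  have hℓneg : ∀ m : ℕ, ‖ℓ (-(m : ℤ))‖ ≤ 1 * ‖π‖ ^ m := fun m =>
    le_of_tendsto' ((continuous_norm.tendsto _).comp (hℓ (-(m : ℤ))))
      fun j => (M.isNodeSeries_tx (f j)).2 m
  have hℓle : ∀ k : ℤ, ‖ℓ k‖ ≤ 1 := by
    intro k
    rcases Int.eq_nat_or_neg k with ⟨m, rfl | rfl⟩
    · exact hℓpos m
    · refine (hℓneg m).trans ?_
      rw [one_mul]
      exact pow_le_one₀ hπpos.le hπ1.le
  have hb : BddAbove (Set.range fun n => ‖ℓ n‖) := ⟨1, by rintro _ ⟨n, rfl⟩; exact hℓle n⟩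
  have h0 : Tendsto ℓ atBot (𝓝 0) := by
    rw [Metric.tendsto_nhds]
    intro ε hε
    obtain ⟨N, hN⟩ := exists_pow_lt_of_lt_one hε hπ1
    refine Filter.eventually_atBot.mpr ⟨-(N : ℤ), fun k hk => ?_⟩
    rw [dist_zero_right]
    obtain ⟨m, rfl⟩ : ∃ m : ℕ, k = -(m : ℤ) := ⟨k.natAbs, by omega⟩
    have hNm : N ≤ m := by omega
    refine lt_of_le_of_lt ((hℓneg m).trans ?_) hN
    rw [one_mul]
    exact pow_le_pow_of_le_one hπpos.le hπ1.le hNm
  set L : BAmice K := BAmice.mk ℓ hb h0 with hL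
  have hLnode : IsNodeSeries π 1 L := ⟨fun n => by rw [hL, coeff_mk]; exact hℓpos n,
    fun m => by rw [hL, coeff_mk]; exact hℓneg m⟩
  obtain ⟨l, hl⟩ := M.exists_tx_eq L hLnode
  refine ⟨l, fun n r ρ hr hr1 hρϖ hρr hρπ => ?_⟩
  -- `l - f n` is the coefficientwise limit of `f m - f n`
  refine CircleLe.of_tendsto (gs := fun m => M.tx (f m - f n)) (fun k => ?_) ?_
  · have : Tendsto (fun m => coeff k (M.tx (f m)) - coeff k (M.tx (f n))) atTop
        (𝓝 (ℓ k - coeff k (M.tx (f n)))) := (hℓ k).sub_const _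
    have e : coeff k (M.tx (l - f n)) = ℓ k - coeff k (M.tx (f n)) := by
      rw [map_sub, hl, map_sub, hL, coeff_mk]
    rw [e]
    refine this.congr fun m => ?_
    rw [map_sub, map_sub]
  · refine Filter.eventually_atTop.mpr ⟨n, fun m hm => ?_⟩
    exact M.circleLe_of_mem_pow hπ0 hϖ hX hY hr hr1 hρϖ hρr hρπ n (sub_mem_pow_of_le hf hm)

/-- **Completeness of the node ring, pointwise form** (= the field `complete` of
`Expand.ExpData` for the node target). -/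
theorem complete (hπ0 : π ≠ 0) (hπ1 : ‖π‖ < 1) {ϖ : K} (hϖ1 : ‖ϖ‖ < 1) {ϖB X Y : B}
    (hϖ : M.tx ϖB = single 0 ϖ) (hX : M.tx X = single 1 1) (hY : M.tx Y = single (-1) π)
    (f : ℕ → B) (hf : ∀ n, f (n + 1) - f n ∈ Ideal.span {ϖB, X, Y} ^ n) :
    ∃ l : B, ∀ (z : Ω) (h1 : ‖π‖ < ‖z‖) (h2 : ‖z‖ < 1),
      Tendsto (fun n => M.evalB z h1 h2 (f n)) atTop (𝓝 (M.evalB z h1 h2 l)) := by
  obtain ⟨l, hl⟩ := M.exists_limit hπ0 hπ1 hϖ1 hϖ hX hY f hf
  refine ⟨l, fun z h1 h2 => ?_⟩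
  have hzpos : 0 < ‖z‖ := (norm_nonneg π).trans_lt h1
  set ρ : ℝ := max ‖ϖ‖ (max ‖z‖ (‖π‖ / ‖z‖)) with hρ
  have hρ1 : ρ < 1 := max_lt hϖ1 (max_lt h2 ((div_lt_one hzpos).mpr h1))
  have hρ0 : 0 ≤ ρ := (norm_nonneg ϖ).trans (le_max_left _ _)
  rw [tendsto_iff_norm_sub_tendsto_zero]
  refine squeeze_zero (fun n => norm_nonneg _) (fun n => ?_)
    (tendsto_pow_atTop_nhds_zero_of_lt_one hρ0 hρ1)
  rw [← map_sub, ← norm_neg, ← map_neg, neg_sub]
  exact M.norm_evalB_le_of_circleLe z h1 h2 (pow_nonneg hρ0 n)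
    (hl n ‖z‖ ρ h1.le h2.le (le_max_left _ _) ((le_max_left _ _).trans (le_max_right _ _))
      ((le_max_right _ _).trans (le_max_right _ _)))

/-! #### the identity theorem -/

/-- **(ID), two-ended**: a nonzero element of the node ring over a discretely valued field has no
zero in a collar at one of the two ends of the annulus. -/
theorem ident {θ : ℝ} (hθ1 : θ < 1) (hdisc : ∀ x y : K, ‖x‖ < ‖y‖ → ‖x‖ ≤ θ * ‖y‖)
    (hπ0 : π ≠ 0) (hπ1 : ‖π‖ < 1) (b : B) (hb : b ≠ 0) :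
    ∃ ρ : ℝ, ρ < 1 ∧
      ((∀ (z : Ω) (h1 : ‖π‖ < ‖z‖) (h2 : ‖z‖ < 1), ρ < ‖z‖ → M.evalB z h1 h2 b ≠ 0) ∨
       (∀ (z : Ω) (h1 : ‖π‖ < ‖z‖) (h2 : ‖z‖ < 1), ρ < ‖π‖ / ‖z‖ → M.evalB z h1 h2 b ≠ 0)) := by
  have hb' : M.tx b ≠ 0 := fun h => hb (M.tx_injective (by rw [h, map_zero]))
  obtain ⟨ρ, -, hρ1, hout | hin⟩ :=
    exists_collar_ne_zero (Ω := Ω) hθ1 hdisc hπ0 hπ1 (M.isNodeSeries_tx b) hb'
  · exact ⟨ρ, hρ1, Or.inl fun z h1 h2 hρz => hout z hρz h2⟩
  · refine ⟨ρ, hρ1, Or.inr fun z h1 h2 hρz => hin z h1 h2 ?_⟩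
    exact (lt_div_iff₀ ((norm_nonneg π).trans_lt h1)).mp hρz

/-- the separation property: an element vanishing at all points of a set meeting both collars is
zero -/
theorem eq_zero_of_forall_evalB_eq_zero {θ : ℝ} (hθ1 : θ < 1)
    (hdisc : ∀ x y : K, ‖x‖ < ‖y‖ → ‖x‖ ≤ θ * ‖y‖) (hπ0 : π ≠ 0) (hπ1 : ‖π‖ < 1) (b : B)
    {Z : Set Ω} (hZ : ∀ z ∈ Z, ‖π‖ < ‖z‖ ∧ ‖z‖ < 1)
    (houter : ∀ ρ : ℝ, ρ < 1 → ∃ z ∈ Z, ρ < ‖z‖)
    (hinner : ∀ ρ : ℝ, ρ < 1 → ∃ z ∈ Z, ρ < ‖π‖ / ‖z‖)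
    (hzero : ∀ (z : Ω) (hz : z ∈ Z), M.evalB z (hZ z hz).1 (hZ z hz).2 b = 0) : b = 0 := by
  by_contra hb
  obtain ⟨ρ, hρ1, hout | hin⟩ := M.ident (Ω := Ω) hθ1 hdisc hπ0 hπ1 b hb
  · obtain ⟨z, hz, hρz⟩ := houter ρ hρ1
    exact hout z (hZ z hz).1 (hZ z hz).2 hρz (hzero z hz)
  · obtain ⟨z, hz, hρz⟩ := hinner ρ hρ1
    exact hin z (hZ z hz).1 (hZ z hz).2 hρz (hzero z hz)

/-! #### constants and coordinates -/

theorem isNodeSeries_single_zero {a : K} (ha : ‖a‖ ≤ 1) : IsNodeSeries π 1 (single 0 a) := by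
  refine ⟨fun n => ?_, fun m => ?_⟩
  · rw [coeff_single]
    split_ifs
    · exact ha
    · rw [norm_zero]; exact zero_le_one
  · rw [coeff_single]
    split_ifs with h
    · have : m = 0 := by omega
      subst this
      rw [pow_zero, mul_one]
      exact ha
    · rw [norm_zero]
      exact mul_nonneg zero_le_one (pow_nonneg (norm_nonneg _) _)

theorem isNodeSeries_single_one : IsNodeSeries π 1 (single 1 (1 : K)) := by
  refine ⟨fun n => ?_, fun m => ?_⟩
  · rw [coeff_single]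
    split_ifs
    · rw [norm_one]
    · rw [norm_zero]; exact zero_le_one
  · rw [coeff_single, if_neg (by omega), norm_zero]
    exact mul_nonneg zero_le_one (pow_nonneg (norm_nonneg _) _)

theorem isNodeSeries_single_neg_one : IsNodeSeries π 1 (single (-1) π) := by
  refine ⟨fun n => ?_, fun m => ?_⟩
  · rw [coeff_single, if_neg (by omega), norm_zero]
    exact zero_le_one
  · rw [coeff_single]
    split_ifs with h
    · have : m = 1 := by omega
      subst this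
      rw [pow_one, one_mul]
    · rw [norm_zero]
      exact mul_nonneg zero_le_one (pow_nonneg (norm_nonneg _) _)

/-- the coordinate `X` of the model -/
def Xel : B := (M.exists_tx_eq _ isNodeSeries_single_one).choose

theorem tx_Xel : M.tx M.Xel = single 1 1 := (M.exists_tx_eq _ isNodeSeries_single_one).choose_spec

/-- the coordinate `Y` of the model -/
def Yel : B := (M.exists_tx_eq _ isNodeSeries_single_neg_one).choose

theorem tx_Yel : M.tx M.Yel = single (-1) π :=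
  (M.exists_tx_eq _ isNodeSeries_single_neg_one).choose_spec

/-- the constants of the model -/
def constFun (a : K) (ha : ‖a‖ ≤ 1) : B := (M.exists_tx_eq _ (isNodeSeries_single_zero ha)).choose

theorem tx_constFun (a : K) (ha : ‖a‖ ≤ 1) : M.tx (M.constFun a ha) = single 0 a :=
  (M.exists_tx_eq _ (isNodeSeries_single_zero ha)).choose_spec

theorem single_zero_eq_algebraMap (a : K) : single 0 a = algebraMap K (BAmice K) a := by
  refine BAmice.ext fun n => ?_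
  rw [coeff_single, coeff_algebraMap]

/-- the constants, as a ring homomorphism from any ring of integral constants -/
def constHom {W₀ : Type*} [CommRing W₀] (cK : W₀ →+* K) (hcK : ∀ w, ‖cK w‖ ≤ 1) : W₀ →+* B where
  toFun w := M.constFun (cK w) (hcK w)
  map_one' := M.tx_injective (by
    rw [tx_constFun, map_one, map_one, one_def])
  map_mul' v w := M.tx_injective (by
    rw [tx_constFun, map_mul M.tx, tx_constFun, tx_constFun, single_mul_single, zero_add, map_mul])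
  map_zero' := M.tx_injective (by
    rw [tx_constFun, map_zero, map_zero, single_zero_eq_algebraMap, map_zero])
  map_add' v w := M.tx_injective (by
    rw [tx_constFun, map_add M.tx, tx_constFun, tx_constFun, single_zero_eq_algebraMap,
      single_zero_eq_algebraMap, single_zero_eq_algebraMap, map_add, map_add])

theorem tx_constHom {W₀ : Type*} [CommRing W₀] (cK : W₀ →+* K) (hcK : ∀ w, ‖cK w‖ ≤ 1) (w : W₀) :
    M.tx (M.constHom cK hcK w) = single 0 (cK w) := M.tx_constFun (cK w) (hcK w)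

theorem Xel_mul_Yel {W₀ : Type*} [CommRing W₀] (cK : W₀ →+* K)
    (hcK : ∀ w, ‖cK w‖ ≤ 1) {π₀ : W₀} (hπ₀ : cK π₀ = π) :
    M.Xel * M.Yel = M.constHom cK hcK π₀ := M.tx_injective (by
  rw [map_mul, tx_Xel, tx_Yel, tx_constHom, single_mul_single, hπ₀, one_mul]
  rfl)

theorem evalB_constHom {W₀ : Type*} [CommRing W₀] (cK : W₀ →+* K) (hcK : ∀ w, ‖cK w‖ ≤ 1)
    (z : Ω) (h1 : ‖π‖ < ‖z‖) (h2 : ‖z‖ < 1) (w : W₀) :
    M.evalB z h1 h2 (M.constHom cK hcK w) = algebraMap K Ω (cK w) := by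
  rw [M.evalB_of_single z h1 h2 (M.tx_constHom cK hcK w), zpow_zero, mul_one]

theorem evalB_Xel (z : Ω) (h1 : ‖π‖ < ‖z‖) (h2 : ‖z‖ < 1) : M.evalB z h1 h2 M.Xel = z := by
  rw [M.evalB_of_single z h1 h2 M.tx_Xel, map_one, one_mul, zpow_one]

theorem evalB_Yel (z : Ω) (h1 : ‖π‖ < ‖z‖) (h2 : ‖z‖ < 1) :
    M.evalB z h1 h2 M.Yel = algebraMap K Ω π / z := by
  rw [M.evalB_of_single z h1 h2 M.tx_Yel, zpow_neg, zpow_one, div_eq_mul_inv]

end NodeModel

end Fermat.Agent.FF3.NodeEval
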