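/-
Programme I (S33, p-new half), block B3 (expansion layer), node §2d, part 5 (helper5):
every model of the node ring (`NodeModel π B`, `FF3/NodeEval/Target`) over a complete discretely
valued field `K ⊆ Ω` is a node target (`Expand.NodeTargetEv`, `FF3/Expand/NodeTarget`).
-/
import Mathlib
import Fermat.Agent.FF3.NodeEval.Target
import Fermat.Agent.FF3.Expand.NodeTarget

set_option autoImplicit false
set_option linter.unusedSectionVars false

noncomputable section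

namespace Fermat.Agent.FF3.NodeEval

open Filter Topology Fermat.Agent.FF3.Amice Fermat.Agent.FF3.Amice.BAmice

variable {K : Type*} [NormedField K] [IsUltrametricDist K] [CompleteSpace K]
variable {Ω : Type*} [NormedField Ω] [IsUltrametricDist Ω] [CompleteSpace Ω] [NormedAlgebra K Ω]

namespace NodeModel

variable {π : K} {B : Type*} [CommRing B] (M : NodeModel π B)

/-- **The node target of a model of the node ring.**  `W₀` any ring of integral constants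
(`cK : W₀ →+* K`, `‖cK w‖ ≤ 1`), `ϖ₀ π₀ : W₀` with `‖cK ϖ₀‖ < 1`, `cK π₀ = π`, `0 < ‖π‖ < 1`,
`K` discretely valued (`hdisc`). -/
def toTargetEv {θ : ℝ} (hθ1 : θ < 1) (hdisc : ∀ x y : K, ‖x‖ < ‖y‖ → ‖x‖ ≤ θ * ‖y‖)
    (hπ0 : π ≠ 0) (hπ1 : ‖π‖ < 1) {W₀ : Type*} [CommRing W₀] (cK : W₀ →+* K)
    (hcK : ∀ w, ‖cK w‖ ≤ 1) (ϖ₀ π₀ : W₀) (hϖ₀ : ‖cK ϖ₀‖ < 1) (hπ₀ : cK π₀ = π) :
    Expand.NodeTargetEv W₀ ϖ₀ π₀ Ω ((algebraMap K Ω).comp cK) B where
  c := M.constHom cK hcK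
  X := M.Xel
  Y := M.Yel
  X_mul_Y := M.Xel_mul_Yel cK hcK hπ₀
  evalAt a h1 h2 := M.evalB a
    (by rwa [RingHom.comp_apply, hπ₀, norm_algebraMap', ] at h1) h2
  evalAt_c a h1 h2 w := M.evalB_constHom cK hcK a _ h2 w
  evalAt_X a h1 h2 := M.evalB_Xel a _ h2
  evalAt_le a h1 h2 b := M.norm_evalB_le a _ h2 b
  complete f hf := by
    obtain ⟨l, hl⟩ := M.complete (Ω := Ω) hπ0 hπ1 hϖ₀ (M.tx_constHom cK hcK ϖ₀) M.tx_Xel
      M.tx_Yel f hf
    exact ⟨l, fun a h1 h2 => hl a _ h2⟩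
  ident b hb := by
    have e : ‖(algebraMap K Ω).comp cK π₀‖ = ‖π‖ := by
      rw [RingHom.comp_apply, hπ₀, norm_algebraMap']
    obtain ⟨ρ, hρ1, h | h⟩ := M.ident (Ω := Ω) hθ1 hdisc hπ0 hπ1 b hb
    · exact ⟨ρ, hρ1, Or.inl fun a h1 h2 hρ => h a _ h2 hρ⟩
    · refine ⟨ρ, hρ1, Or.inr fun a h1 h2 hρ => h a _ h2 ?_⟩
      rwa [e] at hρ

end NodeModel

end Fermat.Agent.FF3.NodeEval
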